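import Mathlib

set_option autoImplicit false

namespace Fermat.Agent.S22

open UpperHalfPlane ModularForm
open scoped Manifold MatrixGroups ModularForm Derivative Real

noncomputable section

theorem iterate_D_mdiff (n : ℕ) {F : ℍ → ℂ} (hF : MDiff F) : MDiff (D^[n] F) := by
  induction n generalizing F with
  | zero => simpa using hF
  | succ n ih =>
    rw [Function.iterate_succ_apply]
    exact ih (Derivative.normalizedDerivOfComplex_mdifferentiable hF)

theorem iterate_D_add (n : ℕ) {F G : ℍ → ℂ} (hF : MDiff F) (hG : MDiff G) :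
    D^[n] (F + G) = D^[n] F + D^[n] G := by
  induction n generalizing F G with
  | zero => rfl
  | succ n ih =>
    rw [Function.iterate_succ_apply, Function.iterate_succ_apply, Function.iterate_succ_apply,
      Derivative.normalizedDerivOfComplex_add F G hF hG]
    exact ih (Derivative.normalizedDerivOfComplex_mdifferentiable hF)
      (Derivative.normalizedDerivOfComplex_mdifferentiable hG)

theorem iterate_D_sub (n : ℕ) {F G : ℍ → ℂ} (hF : MDiff F) (hG : MDiff G) :
    D^[n] (F - G) = D^[n] F - D^[n] G := by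
  induction n generalizing F G with
  | zero => rfl
  | succ n ih =>
    rw [Function.iterate_succ_apply, Function.iterate_succ_apply, Function.iterate_succ_apply,
      Derivative.normalizedDerivOfComplex_sub F G hF hG]
    exact ih (Derivative.normalizedDerivOfComplex_mdifferentiable hF)
      (Derivative.normalizedDerivOfComplex_mdifferentiable hG)

theorem iterate_D_smul (n : ℕ) (c : ℂ) {F : ℍ → ℂ} (hF : MDiff F) :
    D^[n] (c • F) = c • D^[n] F := by
  induction n generalizing F with
  | zero => rfl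
  | succ n ih =>
    rw [Function.iterate_succ_apply, Function.iterate_succ_apply,
      Derivative.normalizedDerivOfComplex_smul c F hF]
    exact ih (Derivative.normalizedDerivOfComplex_mdifferentiable hF)

theorem iterate_D_zero (n : ℕ) : D^[n] (0 : ℍ → ℂ) = 0 := by
  have h := iterate_D_smul n 0 (F := (0 : ℍ → ℂ)) mdifferentiable_const
  simpa using h

theorem mdiff_sum {ι : Type*} (s : Finset ι) (F : ι → ℍ → ℂ)
    (hF : ∀ i ∈ s, MDiff (F i)) : MDiff (∑ i ∈ s, F i) := by
  classical
  induction s using Finset.induction_on with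
  | empty =>
    simp only [Finset.sum_empty]
    exact mdifferentiable_const
  | insert i t hi IH =>
    rw [Finset.sum_insert hi]
    exact (hF i (Finset.mem_insert_self i t)).add
      (IH fun j hj => hF j (Finset.mem_insert_of_mem hj))

theorem iterate_D_sum (n : ℕ) {ι : Type*} (s : Finset ι) (F : ι → ℍ → ℂ)
    (hF : ∀ i ∈ s, MDiff (F i)) :
    D^[n] (∑ i ∈ s, F i) = ∑ i ∈ s, D^[n] (F i) := by
  classical
  induction s using Finset.induction_on with
  | empty => simpa using iterate_D_zero n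
  | insert i t hi IH =>
    have hFt : ∀ j ∈ t, MDiff (F j) := fun j hj => hF j (Finset.mem_insert_of_mem hj)
    rw [Finset.sum_insert hi, Finset.sum_insert hi,
      iterate_D_add n (hF i (Finset.mem_insert_self i t)) (mdiff_sum t F hFt), IH hFt]

/-- Leibniz rule for a product with a function whose `D`-derivative is constant. -/
theorem iterate_D_mul_of_D_const {J H : ℍ → ℂ} {κ : ℂ} (hJ : MDiff J)
    (hDJ : D J = fun _ => κ) (hH : MDiff H) (m : ℕ) :
    D^[m + 1] (J * H) = J * D^[m + 1] H + ((m + 1 : ℕ) : ℂ) • (κ • D^[m] H) := by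
  induction m with
  | zero =>
    simp only [Function.iterate_succ, Function.iterate_zero, Function.comp_apply, id_eq, zero_add,
      Nat.cast_one, one_smul]
    rw [Derivative.normalizedDerivOfComplex_mul J H hJ hH, hDJ]
    ext z
    simp [mul_comm, add_comm]
  | succ m ih =>
    have hm : MDiff (D^[m + 1] H) := iterate_D_mdiff _ hH
    have hm0 : MDiff (D^[m] H) := iterate_D_mdiff _ hH
    rw [Function.iterate_succ_apply' (f := D) (n := m + 1), ih]
    have h1 : MDiff (J * D^[m + 1] H) := hJ.mul hm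
    have h2 : MDiff (((m + 1 : ℕ) : ℂ) • (κ • D^[m] H)) := (hm0.const_smul κ).const_smul _
    rw [Derivative.normalizedDerivOfComplex_add _ _ h1 h2,
      Derivative.normalizedDerivOfComplex_mul J _ hJ hm, hDJ,
      Derivative.normalizedDerivOfComplex_smul _ _ (hm0.const_smul κ),
      Derivative.normalizedDerivOfComplex_smul _ _ hm0]
    rw [← Function.iterate_succ_apply' (f := D) (n := m + 1),
      ← Function.iterate_succ_apply' (f := D) (n := m)]
    ext z
    simp only [Pi.add_apply, Pi.mul_apply, Pi.smul_apply, smul_eq_mul]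
    push_cast
    ring

/-- value of the slash action for positive determinant -/
theorem slash_apply_of_pos (k : ℤ) (F : ℍ → ℂ) {g : GL (Fin 2) ℝ} (hg : 0 < g.val.det) (z : ℍ) :
    (F ∣[k] g) z = F (g • z) * (g.val.det : ℂ) ^ (k - 1) * denom g z ^ (-k) := by
  have hdet : g.det.val = g.val.det := Matrix.GeneralLinearGroup.val_det_apply g
  have hσ (x) : σ g x = x := by grind [σ, ContinuousAlgEquiv.refl_apply]
  rw [ModularForm.slash_apply, hσ, hdet, abs_of_pos hg]

theorem D_denom (g : GL (Fin 2) ℝ) :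
    D (fun τ : ℍ => denom g τ) = fun _ => (2 * π * Complex.I)⁻¹ * (g 1 0 : ℂ) := by
  ext z
  simp only [Derivative.normalizedDerivOfComplex]
  congr 1
  have h1 : ((fun τ : ℍ => denom g τ) ∘ ofComplex) =ᶠ[nhds (z : ℂ)]
      fun w : ℂ => (g 1 0 : ℂ) * w + (g 1 1 : ℂ) := by
    filter_upwards [isOpen_upperHalfPlaneSet.mem_nhds z.im_pos] with w hw
    simp [denom, ofComplex_apply_of_im_pos hw]
  rw [h1.deriv_eq]
  simp

/-- lowering the weight by one: multiply by the denominator. -/
theorem slash_pred_eq (k : ℤ) (F : ℍ → ℂ) {g : GL (Fin 2) ℝ} (hg : 0 < g.val.det) :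
    F ∣[k - 1] g = ((g.val.det : ℂ)⁻¹) • ((fun τ : ℍ => denom g τ) * (F ∣[k] g)) := by
  have hdetℂ : (g.val.det : ℂ) ≠ 0 := Complex.ofReal_ne_zero.mpr hg.ne'
  ext z
  have hz := denom_ne_zero g z
  simp only [Pi.smul_apply, Pi.mul_apply, smul_eq_mul, slash_apply_of_pos _ _ hg]
  rw [show -(k - 1) = -k + 1 by ring, zpow_add_one₀ hz, zpow_sub_one₀ hdetℂ]
  field_simp

/-- Bol's identity. -/
theorem bol (n : ℕ) {F : ℍ → ℂ} (hF : MDiff F) (g : GL (Fin 2) ℝ) (hg : 0 < g.val.det) :
    D^[n] (F ∣[(1 : ℤ) - n] g) = ((g.val.det : ℂ)⁻¹) ^ n • ((D^[n] F) ∣[(n : ℤ) + 1] g) := by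
  have hdetℂ : (g.val.det : ℂ) ≠ 0 := Complex.ofReal_ne_zero.mpr hg.ne'
  induction n generalizing F with
  | zero => simp
  | succ n ih =>
    set J : ℍ → ℂ := fun τ : ℍ => denom g τ with hJdef
    set κ : ℂ := (2 * π * Complex.I)⁻¹ * (g 1 0 : ℂ) with hκ
    have hJ : MDiff J := mdifferentiable_denom g
    have hDJ : D J = fun _ => κ := D_denom g
    set H : ℍ → ℂ := F ∣[(1 : ℤ) - n] g with hHdef
    have hH : MDiff H := hF.slash _ g
    have hFn : MDiff (D^[n] F) := iterate_D_mdiff n hF
    set G : ℍ → ℂ := (D^[n] F) ∣[(n : ℤ) + 1] g with hGdef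
    have hG : MDiff G := hFn.slash _ g
    have e1 : F ∣[(1 : ℤ) - (n + 1 : ℕ)] g = ((g.val.det : ℂ)⁻¹) • (J * H) := by
      have := slash_pred_eq ((1 : ℤ) - n) F hg
      rw [← this]
      congr 1
      push_cast; ring
    have e2 : D^[n] H = ((g.val.det : ℂ)⁻¹) ^ n • G := ih hF
    have e3 : D^[n + 1] H = ((g.val.det : ℂ)⁻¹) ^ n • D G := by
      rw [Function.iterate_succ_apply' (f := D), e2,
        Derivative.normalizedDerivOfComplex_smul _ _ hG]
    have e4 : D G = fun z : ℍ ↦ (g.val.det : ℂ)⁻¹ * ((D (D^[n] F)) ∣[(n : ℤ) + 1 + 2] g) z -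
        (((n : ℤ) + 1 : ℤ) : ℂ) * (2 * π * Complex.I)⁻¹ * (g 1 0 / denom g z) * G z :=
      Derivative.normalizedDerivOfComplex_slash hFn hg
    have e5 : (D (D^[n] F)) ∣[(n : ℤ) + 1 + 1] g =
        ((g.val.det : ℂ)⁻¹) • (J * ((D (D^[n] F)) ∣[(n : ℤ) + 1 + 2] g)) := by
      have := slash_pred_eq ((n : ℤ) + 1 + 2) (D (D^[n] F)) hg
      rw [← this]
      congr 1
      ring
    rw [e1, iterate_D_smul _ _ (hJ.mul hH), iterate_D_mul_of_D_const hJ hDJ hH n, e3, e2, e4,
      Function.iterate_succ_apply' (f := D)]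
    have e6 : ((n + 1 : ℕ) : ℤ) + 1 = (n : ℤ) + 1 + 1 := by push_cast; ring
    rw [e6, e5]
    ext z
    have hz : denom g z ≠ 0 := denom_ne_zero g z
    simp only [Pi.smul_apply, Pi.mul_apply, Pi.add_apply, smul_eq_mul, hJdef, hκ]
    push_cast
    rw [pow_succ]
    field_simp
    ring

end

end Fermat.Agent.S22
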