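import Mathlib

set_option autoImplicit false

namespace Fermat.Agent.S22

open UpperHalfPlane hiding I
open ModularForm Complex Filter Function
open scoped Manifold MatrixGroups ModularForm Derivative Topology Real

noncomputable section

/-- One integration step: a periodic holomorphic function vanishing at `i∞` has a periodic
holomorphic `D`-primitive vanishing at `i∞`. -/
theorem exists_eichler_integral_one {h : ℝ} (hh : 0 < h) {g : ℍ → ℂ}
    (hper : Function.Periodic (g ∘ ofComplex) h) (hhol : MDiff g) (hzero : IsZeroAtImInfty g) :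
    ∃ G : ℍ → ℂ, Function.Periodic (G ∘ ofComplex) h ∧ MDiff G ∧ IsZeroAtImInfty G ∧
      D G = g := by
  have hbdd : IsBoundedAtImInfty g := hzero.boundedAtFilter
  set φ : ℂ → ℂ := cuspFunction h g with hφ
  have hφdiff : DifferentiableOn ℂ φ (Metric.ball 0 1) :=
    differentiableOn_cuspFunction_ball hh hper hhol hbdd
  have hφ0 : φ 0 = 0 := by
    rw [hφ, cuspFunction_apply_zero hh (analyticAt_cuspFunction_zero hh hper hhol hbdd) hper]
    exact hzero.valueAtInfty_eq_zero
  set ψ : ℂ → ℂ := dslope φ 0 with hψ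
  have hψdiff : DifferentiableOn ℂ ψ (Metric.ball 0 1) :=
    (Complex.differentiableOn_dslope (Metric.ball_mem_nhds 0 one_pos)).mpr hφdiff
  obtain ⟨Ψ, hΨ0, hΨ⟩ := hψdiff.isExactOn_ball.with_val_at 0 0
  have hqlt : ∀ z : ℂ, 0 < z.im → Function.Periodic.qParam h z ∈ Metric.ball (0 : ℂ) 1 := by
    intro z hz
    simpa using Function.Periodic.norm_qParam_lt_one hh hz
  have hqper : ∀ z : ℂ, Function.Periodic.qParam h (z + h) = Function.Periodic.qParam h z := by
    intro z
    simp only [Function.Periodic.qParam]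
    have hne : (h : ℂ) ≠ 0 := by exact_mod_cast hh.ne'
    rw [show 2 * (π : ℂ) * I * (z + h) / h = 2 * π * I * z / h + 2 * π * I by field_simp]
    rw [Complex.exp_add, Complex.exp_two_pi_mul_I, mul_one]
  refine ⟨fun τ => h * Ψ (Function.Periodic.qParam h τ), ?_, ?_, ?_, ?_⟩
  · intro w
    by_cases hw : 0 < im w
    · have hw' : 0 < im (w + h) := by simpa using hw
      simp only [comp_apply, ofComplex_apply_of_im_pos hw', ofComplex_apply_of_im_pos hw]
      rw [hqper]
    · have hw0 : im w ≤ 0 := not_lt.mp hw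
      have hw' : im (w + h) ≤ 0 := by simpa using hw0
      simp [ofComplex_apply_of_im_nonpos hw', ofComplex_apply_of_im_nonpos hw0]
  · rw [UpperHalfPlane.mdifferentiable_iff]
    intro z hz
    have hz' : 0 < z.im := hz
    have h1 : DifferentiableAt ℂ (fun w : ℂ => (h : ℂ) * Ψ (Function.Periodic.qParam h w)) z := by
      have hΨd : DifferentiableAt ℂ Ψ (Function.Periodic.qParam h z) :=
        (hΨ _ (hqlt z hz')).differentiableAt
      have hq : DifferentiableAt ℂ (Function.Periodic.qParam h) z :=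
        (Function.Periodic.differentiable_qParam (h := h)).differentiableAt
      exact (hΨd.comp z hq).const_mul _
    refine (h1.congr_of_eventuallyEq ?_).differentiableWithinAt
    filter_upwards [isOpen_upperHalfPlaneSet.mem_nhds hz'] with w hw
    simp [comp_apply, ofComplex_apply_of_im_pos hw]
  · have hcont : ContinuousAt Ψ 0 :=
      (hΨ 0 (Metric.mem_ball_self one_pos)).continuousAt
    have ht : Tendsto (fun τ : ℍ => Ψ (Function.Periodic.qParam h τ)) atImInfty (𝓝 (Ψ 0)) :=
      hcont.tendsto.comp (qParam_tendsto_atImInfty hh)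
    rw [hΨ0] at ht
    have := ht.const_mul (h : ℂ)
    simpa [IsZeroAtImInfty, ZeroAtFilter] using this
  · funext τ
    have hτ : 0 < (τ : ℂ).im := τ.im_pos
    set q := Function.Periodic.qParam h (τ : ℂ) with hq
    have hqne : q ≠ 0 := Function.Periodic.qParam_ne_zero _
    have hne : (h : ℂ) ≠ 0 := by exact_mod_cast hh.ne'
    have qdiff : HasDerivAt (Function.Periodic.qParam h) (q * (2 * π * I / h)) (τ : ℂ) := by
      have := (((hasDerivAt_id (τ : ℂ)).const_mul (2 * π * I)).div_const (h : ℂ)).cexp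
      simp only [id_eq, mul_one] at this
      exact this
    have hΨd : HasDerivAt Ψ (ψ q) q := hΨ q (hqlt _ hτ)
    have hcomp : HasDerivAt (fun w : ℂ => (h : ℂ) * Ψ (Function.Periodic.qParam h w))
        ((h : ℂ) * (ψ q * (q * (2 * π * I / h)))) (τ : ℂ) :=
      (hΨd.comp (τ : ℂ) qdiff).const_mul _
    have hev : ((fun τ : ℍ => (h : ℂ) * Ψ (Function.Periodic.qParam h τ)) ∘ ofComplex)
        =ᶠ[𝓝 (τ : ℂ)] fun w : ℂ => (h : ℂ) * Ψ (Function.Periodic.qParam h w) := by
      filter_upwards [isOpen_upperHalfPlaneSet.mem_nhds hτ] with w hw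
      simp [comp_apply, ofComplex_apply_of_im_pos hw]
    have hderiv := (hcomp.congr_of_eventuallyEq hev).deriv
    have hψq : ψ q = q⁻¹ * g τ := by
      rw [hψ, dslope_of_ne _ hqne, slope_def_field, hφ0, sub_zero, sub_zero, hφ, hq,
        eq_cuspFunction τ hh.ne' hper]
      field_simp
    simp only [Derivative.normalizedDerivOfComplex]
    rw [hderiv, hψq]
    have hpi : (2 * (π : ℂ) * I) ≠ 0 := Complex.two_pi_I_ne_zero
    field_simp

/-- Iterated Eichler integral. -/
theorem exists_eichler_integral (n : ℕ) {h : ℝ} (hh : 0 < h) {g : ℍ → ℂ}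
    (hper : Function.Periodic (g ∘ ofComplex) h) (hhol : MDiff g) (hzero : IsZeroAtImInfty g) :
    ∃ G : ℍ → ℂ, Function.Periodic (G ∘ ofComplex) h ∧ MDiff G ∧ IsZeroAtImInfty G ∧
      D^[n] G = g := by
  induction n generalizing g with
  | zero => exact ⟨g, hper, hhol, hzero, rfl⟩
  | succ n ih =>
    obtain ⟨G1, hG1per, hG1hol, hG1zero, hDG1⟩ := exists_eichler_integral_one hh hper hhol hzero
    obtain ⟨G, hGper, hGhol, hGzero, hDG⟩ := ih hG1per hG1hol hG1zero
    refine ⟨G, hGper, hGhol, hGzero, ?_⟩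
    rw [Function.iterate_succ_apply', hDG, hDG1]

end

end Fermat.Agent.S22
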