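import Mathlib

set_option autoImplicit false

namespace Fermat.Agent.S22

open UpperHalfPlane ModularForm
open scoped Manifold MatrixGroups ModularForm Derivative

noncomputable section

/-- composing a polynomial function on `ℍ` with `ofComplex` agrees with the polynomial near `z`. -/
theorem polyKernel_comp_ofComplex_eventuallyEq (p : Polynomial ℂ) {z : ℂ} (hz : 0 < z.im) :
    ((fun τ : ℍ => p.eval (τ : ℂ)) ∘ ofComplex) =ᶠ[nhds z] fun w => p.eval w := by
  filter_upwards [isOpen_upperHalfPlaneSet.mem_nhds hz] with w hw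
  simp only [Function.comp_apply, ofComplex_apply_of_im_pos hw]

theorem mdiff_poly (p : Polynomial ℂ) : MDiff (fun τ : ℍ => p.eval (τ : ℂ)) := by
  rw [UpperHalfPlane.mdifferentiable_iff]
  intro z hz
  have h1 : DifferentiableAt ℂ (fun w => p.eval w) z := p.differentiable.differentiableAt
  exact (h1.congr_of_eventuallyEq (polyKernel_comp_ofComplex_eventuallyEq p hz)).differentiableWithinAt

/-- `D` of a polynomial function. -/
theorem polyKernel_D_poly (p : Polynomial ℂ) :
    D (fun τ : ℍ => p.eval (τ : ℂ)) =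
      fun τ : ℍ => (Polynomial.C ((2 * (Real.pi : ℂ) * Complex.I)⁻¹) *
        Polynomial.derivative p).eval (τ : ℂ) := by
  ext τ
  simp only [Derivative.normalizedDerivOfComplex]
  rw [(polyKernel_comp_ofComplex_eventuallyEq p τ.im_pos).deriv_eq, Polynomial.deriv]
  simp

theorem iterate_D_poly_eq_zero (n : ℕ) (p : Polynomial ℂ) (hp : p.degree < n) :
    D^[n] (fun τ : ℍ => p.eval (τ : ℂ)) = 0 := by
  induction n generalizing p with
  | zero =>
    have hp0 : p = 0 := by
      by_contra hne
      have := Polynomial.zero_le_degree_iff.mpr hne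
      exact absurd (lt_of_le_of_lt this hp) (by simp)
    subst hp0
    funext τ
    simp
  | succ n ih =>
    rw [Function.iterate_succ_apply, polyKernel_D_poly]
    apply ih
    by_cases hp0 : p = 0
    · subst hp0
      simp
    · have h0 : (Polynomial.C ((2 * (Real.pi : ℂ) * Complex.I)⁻¹) *
          Polynomial.derivative p).degree ≤ (Polynomial.derivative p).degree := by
        refine (Polynomial.degree_mul_le _ _).trans ?_
        calc (Polynomial.C ((2 * (Real.pi : ℂ) * Complex.I)⁻¹)).degree +
              (Polynomial.derivative p).degree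
            ≤ 0 + (Polynomial.derivative p).degree := by
              gcongr
              exact Polynomial.degree_C_le
          _ = (Polynomial.derivative p).degree := zero_add _
      refine lt_of_le_of_lt h0 ?_
      have h1 := Polynomial.degree_derivative_lt hp0
      have h2 : p.degree ≤ n := by
        have : p.degree < ((n + 1 : ℕ) : WithBot ℕ) := hp
        exact Order.le_of_lt_succ this
      exact lt_of_lt_of_le h1 h2

/-- formal antiderivative with a degree bound. -/
theorem polyKernel_exists_antiderivative (n : ℕ) (p : Polynomial ℂ) (hp : p.degree < n) :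
    ∃ P : Polynomial ℂ, Polynomial.derivative P = p ∧ P.degree < (n + 1 : ℕ) := by
  refine ⟨∑ j ∈ Finset.range n, Polynomial.C (p.coeff j / ((j : ℂ) + 1)) * Polynomial.X ^ (j + 1),
    ?_, ?_⟩
  · rw [Polynomial.derivative_sum]
    have hnat : p.natDegree < n ∨ p = 0 := by
      by_cases h0 : p = 0
      · exact Or.inr h0
      · left
        exact (Polynomial.natDegree_lt_iff_degree_lt h0).mpr hp
    have hsum : p = ∑ i ∈ Finset.range n, Polynomial.C (p.coeff i) * Polynomial.X ^ i := by
      rcases hnat with h | h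
      · conv_lhs => rw [Polynomial.as_sum_range' p n h]
        refine Finset.sum_congr rfl fun i _ => ?_
        rw [Polynomial.C_mul_X_pow_eq_monomial]
      · subst h
        simp
    conv_rhs => rw [hsum]
    refine Finset.sum_congr rfl fun j _ => ?_
    rw [Polynomial.derivative_C_mul_X_pow]
    have hj : ((j : ℂ) + 1) ≠ 0 := by
      have : ((j + 1 : ℕ) : ℂ) ≠ 0 := Nat.cast_ne_zero.mpr (Nat.succ_ne_zero j)
      simpa using this
    congr 2
    · push_cast
      field_simp
  · rw [Polynomial.degree_lt_iff_coeff_zero]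
    intro k hk
    rw [Polynomial.finsetSum_coeff]
    refine Finset.sum_eq_zero fun j hj => ?_
    rw [Polynomial.coeff_C_mul_X_pow]
    have : j < n := Finset.mem_range.mp hj
    rw [if_neg (by omega)]

theorem polyKernel_eq_const_of_D_eq_zero {R : ℍ → ℂ} (hR : MDiff R) (h : D R = 0) :
    ∃ c : ℂ, ∀ τ : ℍ, R τ = c := by
  refine ⟨R UpperHalfPlane.I, fun τ => ?_⟩
  have hdiff := UpperHalfPlane.mdifferentiable_iff.mp hR
  have hconv : IsPreconnected {z : ℂ | 0 < z.im} := (convex_halfSpace_im_gt 0).isPreconnected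
  have hderiv : Set.EqOn (deriv (R ∘ ofComplex)) 0 {z : ℂ | 0 < z.im} := by
    intro z hz
    have h1 := congrFun h ⟨z, hz⟩
    simp only [Derivative.normalizedDerivOfComplex, Pi.zero_apply] at h1
    have h2 : (2 * (Real.pi : ℂ) * Complex.I)⁻¹ ≠ 0 := by
      simp [Real.pi_ne_zero]
    rcases mul_eq_zero.mp h1 with h3 | h3
    · exact absurd h3 h2
    · simpa using h3
  have := isOpen_upperHalfPlaneSet.is_const_of_deriv_eq_zero hconv hdiff hderiv
    (x := (τ : ℂ)) (y := (UpperHalfPlane.I : ℂ)) τ.im_pos UpperHalfPlane.I.im_pos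
  rw [Function.comp_apply, Function.comp_apply, ofComplex_apply, ofComplex_apply] at this
  exact this

theorem exists_poly_of_iterate_D_eq_zero (n : ℕ) {Q : ℍ → ℂ} (hQ : MDiff Q)
    (h : D^[n] Q = 0) :
    ∃ p : Polynomial ℂ, p.degree < n ∧ ∀ τ : ℍ, Q τ = p.eval (τ : ℂ) := by
  induction n generalizing Q with
  | zero =>
    refine ⟨0, by simp, fun τ => ?_⟩
    have : Q = 0 := h
    simp [this]
  | succ n ih =>
    rw [Function.iterate_succ_apply] at h
    have hDQ : MDiff (D Q) := Derivative.normalizedDerivOfComplex_mdifferentiable hQ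
    obtain ⟨p, hp, hpe⟩ := ih hDQ h
    set c0 : ℂ := 2 * (Real.pi : ℂ) * Complex.I with hc0
    have hc0ne : c0 ≠ 0 := by simp [hc0, Real.pi_ne_zero]
    have hdeg : (Polynomial.C c0 * p).degree < n := by
      refine lt_of_le_of_lt ((Polynomial.degree_mul_le _ _).trans ?_) hp
      calc (Polynomial.C c0).degree + p.degree ≤ 0 + p.degree := by
              gcongr
              exact Polynomial.degree_C_le
        _ = p.degree := zero_add _
    obtain ⟨P, hPd, hPdeg⟩ := polyKernel_exists_antiderivative n (Polynomial.C c0 * p) hdeg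
    have hRmd : MDiff (Q - fun τ : ℍ => P.eval (τ : ℂ)) := hQ.sub (mdiff_poly P)
    have hDR : D (Q - fun τ : ℍ => P.eval (τ : ℂ)) = 0 := by
      rw [Derivative.normalizedDerivOfComplex_sub _ _ hQ (mdiff_poly P), polyKernel_D_poly, hPd]
      funext τ
      simp only [Pi.sub_apply, Pi.zero_apply, hpe τ, Polynomial.eval_mul, Polynomial.eval_C]
      rw [← hc0]
      field_simp
      ring
    obtain ⟨c, hc⟩ := polyKernel_eq_const_of_D_eq_zero hRmd hDR
    refine ⟨P + Polynomial.C c, ?_, fun τ => ?_⟩
    · refine lt_of_le_of_lt (Polynomial.degree_add_le _ _) (max_lt hPdeg ?_)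
      refine lt_of_le_of_lt Polynomial.degree_C_le ?_
      exact_mod_cast Nat.succ_pos n
    · have := hc τ
      simp only [Pi.sub_apply] at this
      rw [Polynomial.eval_add, Polynomial.eval_C, ← this]
      ring

theorem poly_eq_of_eval_eq (p q : Polynomial ℂ)
    (h : ∀ τ : ℍ, p.eval (τ : ℂ) = q.eval (τ : ℂ)) : p = q := by
  apply Polynomial.eq_of_infinite_eval_eq
  refine Set.infinite_of_injective_forall_mem (f := fun n : ℕ => ((n : ℂ) + 1) * Complex.I) ?_ ?_
  · intro a b hab
    have h1 : ((a : ℂ) + 1) = (b : ℂ) + 1 := mul_right_cancel₀ Complex.I_ne_zero hab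
    have h2 : (a : ℂ) = b := add_right_cancel h1
    exact_mod_cast h2
  · intro n
    have hpos : 0 < (((n : ℂ) + 1) * Complex.I).im := by
      simp
      positivity
    exact h ⟨_, hpos⟩

theorem poly_eq_zero_of_isZeroAtImInfty (p : Polynomial ℂ)
    (h : IsZeroAtImInfty (fun τ : ℍ => p.eval (τ : ℂ))) : p = 0 := by
  have h0 : Filter.Tendsto (fun τ : ℍ => p.eval (τ : ℂ)) atImInfty (nhds 0) := h
  by_cases hdeg : 0 < p.degree
  · exfalso
    have hz : Filter.Tendsto (fun τ : ℍ => ‖(τ : ℂ)‖) atImInfty Filter.atTop := by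
      have him : Filter.Tendsto (fun τ : ℍ => τ.im) atImInfty Filter.atTop :=
        Filter.tendsto_comap
      refine Filter.tendsto_atTop_mono (fun τ => ?_) him
      calc τ.im = (τ : ℂ).im := rfl
        _ ≤ |(τ : ℂ).im| := le_abs_self _
        _ ≤ ‖(τ : ℂ)‖ := Complex.abs_im_le_norm _
    have h1 := Polynomial.tendsto_norm_atTop p hdeg hz
    have h2 : Filter.Tendsto (fun τ : ℍ => ‖p.eval (τ : ℂ)‖) atImInfty (nhds 0) := by
      simpa using h0.norm
    exact not_tendsto_atTop_of_tendsto_nhds h2 h1
  · have hle : p.degree ≤ 0 := not_lt.mp hdeg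
    rw [Polynomial.eq_C_of_degree_le_zero hle] at h0 ⊢
    simp only [Polynomial.eval_C] at h0
    have : p.coeff 0 = 0 := tendsto_nhds_unique tendsto_const_nhds h0
    rw [this, Polynomial.C_0]

theorem poly_eq_const_of_periodic (p : Polynomial ℂ) {h : ℝ} (hh : h ≠ 0)
    (hper : ∀ τ : ℍ, p.eval ((τ : ℂ) + h) = p.eval (τ : ℂ)) :
    ∃ c : ℂ, p = Polynomial.C c := by
  refine ⟨p.eval Complex.I, ?_⟩
  apply Polynomial.eq_of_infinite_eval_eq
  refine Set.infinite_of_injective_forall_mem
    (f := fun n : ℕ => Complex.I + (n : ℂ) * (h : ℂ)) ?_ ?_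
  · intro a b hab
    have h1 : (a : ℂ) * (h : ℂ) = (b : ℂ) * (h : ℂ) := add_left_cancel hab
    have h2 : (a : ℂ) = b := mul_right_cancel₀ (by exact_mod_cast hh) h1
    exact_mod_cast h2
  · intro n
    simp only [Set.mem_ofPred_eq, Polynomial.eval_C]
    induction n with
    | zero => simp
    | succ n ih =>
      have hpos : 0 < (Complex.I + (n : ℂ) * (h : ℂ)).im := by simp
      have := hper ⟨_, hpos⟩
      rw [← ih, ← this]
      congr 1
      push_cast
      ring

end

end Fermat.Agent.S22
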