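import Mathlib
import Fermat.Agent.S22.Bol
import Fermat.Agent.S22.EichlerIntegral
import Fermat.Agent.S22.PolyKernel

/-! Canonical iterated primitive vanishing at the cusp infinity. -/

set_option autoImplicit false

namespace Fermat.Agent.S22

open UpperHalfPlane ModularForm
open scoped Manifold MatrixGroups ModularForm Derivative

noncomputable section

theorem isZeroAtImInfty_sub {F G : ℍ → ℂ} (hF : IsZeroAtImInfty F) (hG : IsZeroAtImInfty G) :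
    IsZeroAtImInfty (F - G) := by
  rw [sub_eq_add_neg]
  exact Filter.ZeroAtFilter.add hF (Filter.ZeroAtFilter.neg hG)

/-- `IsEich n g G`: `G` is holomorphic, tends to zero at infinity and `D^n G = g`. -/
def IsEich (n : ℕ) (g G : ℍ → ℂ) : Prop :=
  MDiff G ∧ IsZeroAtImInfty G ∧ D^[n] G = g

theorem IsEich.unique {n : ℕ} {g G₁ G₂ : ℍ → ℂ} (h₁ : IsEich n g G₁) (h₂ : IsEich n g G₂) :
    G₁ = G₂ := by
  obtain ⟨hd₁, hz₁, he₁⟩ := h₁
  obtain ⟨hd₂, hz₂, he₂⟩ := h₂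
  have hQ : MDiff (G₁ - G₂) := hd₁.sub hd₂
  have hD : D^[n] (G₁ - G₂) = 0 := by
    rw [iterate_D_sub n hd₁ hd₂, he₁, he₂, sub_self]
  obtain ⟨p, -, hp⟩ := exists_poly_of_iterate_D_eq_zero n hQ hD
  have hz : IsZeroAtImInfty (fun τ : ℍ => p.eval (τ : ℂ)) := by
    have : (fun τ : ℍ => p.eval (τ : ℂ)) = G₁ - G₂ := by
      funext τ; exact (hp τ).symm
    rw [this]
    exact isZeroAtImInfty_sub hz₁ hz₂
  have hp0 : p = 0 := poly_eq_zero_of_isZeroAtImInfty p hz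
  funext τ
  have := hp τ
  rw [hp0, Polynomial.eval_zero, Pi.sub_apply, sub_eq_zero] at this
  exact this

open Classical in
/-- The canonical `n`-fold primitive of `g` vanishing at infinity (junk `0` if none exists). -/
def eich (n : ℕ) (g : ℍ → ℂ) : ℍ → ℂ :=
  if h : ∃ G : ℍ → ℂ, IsEich n g G then h.choose else 0

theorem IsEich.eich_eq {n : ℕ} {g G : ℍ → ℂ} (h : IsEich n g G) : eich n g = G := by
  have hex : ∃ G : ℍ → ℂ, IsEich n g G := ⟨G, h⟩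
  rw [eich, dif_pos hex]
  exact hex.choose_spec.unique h

theorem isEich_eich {n : ℕ} {g : ℍ → ℂ} (hex : ∃ G : ℍ → ℂ, IsEich n g G) :
    IsEich n g (eich n g) := by
  obtain ⟨G, hG⟩ := hex
  rw [hG.eich_eq]
  exact hG

theorem IsEich.add {n : ℕ} {g₁ g₂ G₁ G₂ : ℍ → ℂ} (h₁ : IsEich n g₁ G₁) (h₂ : IsEich n g₂ G₂) :
    IsEich n (g₁ + g₂) (G₁ + G₂) :=
  ⟨h₁.1.add h₂.1, h₁.2.1.add h₂.2.1, by rw [iterate_D_add n h₁.1 h₂.1, h₁.2.2, h₂.2.2]⟩

theorem IsEich.sub {n : ℕ} {g₁ g₂ G₁ G₂ : ℍ → ℂ} (h₁ : IsEich n g₁ G₁) (h₂ : IsEich n g₂ G₂) :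
    IsEich n (g₁ - g₂) (G₁ - G₂) :=
  ⟨h₁.1.sub h₂.1, isZeroAtImInfty_sub h₁.2.1 h₂.2.1, by rw [iterate_D_sub n h₁.1 h₂.1, h₁.2.2, h₂.2.2]⟩

theorem IsEich.smul {n : ℕ} {g G : ℍ → ℂ} (c : ℂ) (h : IsEich n g G) :
    IsEich n (c • g) (c • G) :=
  ⟨h.1.const_smul c, h.2.1.smul c, by rw [iterate_D_smul n c h.1, h.2.2]⟩

/-- Existence for periodic holomorphic functions vanishing at infinity. -/
theorem exists_isEich (n : ℕ) {h : ℝ} (hh : 0 < h) {g : ℍ → ℂ}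
    (hper : Function.Periodic (g ∘ ofComplex) h) (hhol : MDiff g) (hzero : IsZeroAtImInfty g) :
    ∃ G : ℍ → ℂ, IsEich n g G ∧ Function.Periodic (G ∘ ofComplex) h := by
  obtain ⟨G, hGper, hGhol, hGzero, hGD⟩ := exists_eichler_integral n hh hper hhol hzero
  exact ⟨G, ⟨hGhol, hGzero, hGD⟩, hGper⟩

/-- Existence for cusp forms on arithmetic subgroups. -/
theorem exists_isEich_cuspForm (n : ℕ) {Γ : Subgroup (GL (Fin 2) ℝ)} [Γ.IsArithmetic] {k : ℤ}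
    (f : CuspForm Γ k) {h : ℝ} (hh : 0 < h) (hΓ : h ∈ Γ.strictPeriods) :
    ∃ G : ℍ → ℂ, IsEich n f G ∧ Function.Periodic (G ∘ ofComplex) h :=
  exists_isEich n hh (SlashInvariantFormClass.periodic_comp_ofComplex f hΓ)
    (CuspFormClass.holo f) (CuspFormClass.zero_at_infty f)

theorem isEich_eich_cuspForm (n : ℕ) {Γ : Subgroup (GL (Fin 2) ℝ)} [Γ.IsArithmetic] {k : ℤ}
    (f : CuspForm Γ k) : IsEich n f (eich n f) := by
  obtain ⟨G, hG, -⟩ := exists_isEich_cuspForm n f Γ.strictWidthInfty_pos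
    Γ.strictWidthInfty_mem_strictPeriods
  exact isEich_eich ⟨G, hG⟩

theorem eich_periodic_cuspForm (n : ℕ) {Γ : Subgroup (GL (Fin 2) ℝ)} [Γ.IsArithmetic] {k : ℤ}
    (f : CuspForm Γ k) {h : ℝ} (hh : 0 < h) (hΓ : h ∈ Γ.strictPeriods) :
    Function.Periodic (eich n f ∘ ofComplex) h := by
  obtain ⟨G, hG, hper⟩ := exists_isEich_cuspForm n f hh hΓ
  rw [hG.eich_eq]
  exact hper

end

end Fermat.Agent.S22
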