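import Mathlib
import Fermat.Prelude.Def_CuspForm_HeckeAlgebra
import Fermat.Agent.S22.Bol

set_option autoImplicit false

namespace Fermat.Agent.S22

open UpperHalfPlane ModularForm
open scoped Manifold MatrixGroups ModularForm Derivative

noncomputable section

theorem isZeroAtImInfty_heckeU' (k : ℤ) (p : ℕ) {F : ℍ → ℂ} (hF : IsZeroAtImInfty F) :
    IsZeroAtImInfty (heckeU k p F) :=
  P2MW.S_ModularForm_isBoundedAtImInfty_heckeT.M4cP1W2.isZeroAtImInfty_heckeU k p hF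

theorem isZeroAtImInfty_heckeT' (k : ℤ) (p : ℕ) {F : ℍ → ℂ} (hF : IsZeroAtImInfty F) :
    IsZeroAtImInfty (heckeT k p F) :=
  P2MW.S_ModularForm_isBoundedAtImInfty_heckeT.M4cP1W2.isZeroAtImInfty_heckeT k p hF

theorem iterate_D_slash_heckeMatrix (n : ℕ) {p : ℕ} (hp : p ≠ 0) (j : ℕ) {F : ℍ → ℂ}
    (hF : MDiff F) :
    D^[n] (F ∣[(1 : ℤ) - n] heckeMatrix p j) =
      ((p : ℂ)⁻¹) ^ n • ((D^[n] F) ∣[(n : ℤ) + 1] heckeMatrix p j) := by
  have hdet : (heckeMatrix p j).val.det = p := by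
    rw [val_heckeMatrix hp, Matrix.det_fin_two_of]; ring
  have hpos : 0 < (heckeMatrix p j).val.det := by
    rw [hdet]; exact_mod_cast Nat.pos_of_ne_zero hp
  rw [bol n hF _ hpos, hdet, Complex.ofReal_natCast]

theorem iterate_D_slash_heckeDiagMatrix (n : ℕ) {p : ℕ} (hp : p ≠ 0) {F : ℍ → ℂ}
    (hF : MDiff F) :
    D^[n] (F ∣[(1 : ℤ) - n] heckeDiagMatrix p) =
      ((p : ℂ)⁻¹) ^ n • ((D^[n] F) ∣[(n : ℤ) + 1] heckeDiagMatrix p) := by
  have hdet : (heckeDiagMatrix p).val.det = p := by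
    rw [val_heckeDiagMatrix hp, Matrix.det_fin_two_of]; ring
  have hpos : 0 < (heckeDiagMatrix p).val.det := by
    rw [hdet]; exact_mod_cast Nat.pos_of_ne_zero hp
  rw [bol n hF _ hpos, hdet, Complex.ofReal_natCast]

theorem iterate_D_heckeU_aux (n : ℕ) {p : ℕ} (hp : p ≠ 0) {F : ℍ → ℂ} (hF : MDiff F) :
    D^[n] (heckeU ((1 : ℤ) - n) p F) = ((p : ℂ)⁻¹) ^ n • heckeU ((n : ℤ) + 1) p (D^[n] F) := by
  rw [heckeU_def, heckeU_def, iterate_D_sum n _ _ (fun j _ => hF.slash _ _), Finset.smul_sum]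
  exact Finset.sum_congr rfl fun j _ => iterate_D_slash_heckeMatrix n hp j hF

theorem iterate_D_heckeU (n : ℕ) {p : ℕ} (hp : p ≠ 0) {F : ℍ → ℂ} (hF : MDiff F) :
    D^[n] ((p : ℂ) ^ n • heckeU ((1 : ℤ) - n) p F) = heckeU ((n : ℤ) + 1) p (D^[n] F) := by
  have hpC : (p : ℂ) ≠ 0 := by exact_mod_cast hp
  rw [iterate_D_smul n _ (mdifferentiable_heckeU hF _ p), iterate_D_heckeU_aux n hp hF, smul_smul,
    ← mul_pow, mul_inv_cancel₀ hpC, one_pow, one_smul]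

theorem iterate_D_heckeT (n : ℕ) {p : ℕ} (hp : p ≠ 0) {F : ℍ → ℂ} (hF : MDiff F) :
    D^[n] ((p : ℂ) ^ n • heckeT ((1 : ℤ) - n) p F) = heckeT ((n : ℤ) + 1) p (D^[n] F) := by
  have hpC : (p : ℂ) ≠ 0 := by exact_mod_cast hp
  rw [iterate_D_smul n _ (mdifferentiable_heckeT hF _ p), heckeT_eq_heckeU_add,
    iterate_D_add n (mdifferentiable_heckeU hF _ p) (hF.slash _ _), iterate_D_heckeU_aux n hp hF,
    iterate_D_slash_heckeDiagMatrix n hp hF, ← smul_add, ← heckeT_eq_heckeU_add, smul_smul,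
    ← mul_pow, mul_inv_cancel₀ hpC, one_pow, one_smul]

end

end Fermat.Agent.S22
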