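import Mathlib

set_option autoImplicit false

namespace Fermat.Agent.S22

open UpperHalfPlane ModularForm
open scoped Manifold MatrixGroups ModularForm

noncomputable section

/-- integer matrix of the weight `1 - n` action on polynomials of degree `< n`. -/
def actCoeff (n : ℕ) (a b c d : ℤ) (i j : ℕ) : ℤ :=
  ((Polynomial.C a * Polynomial.X + Polynomial.C b) ^ j *
    (Polynomial.C c * Polynomial.X + Polynomial.C d) ^ (n - 1 - j) : Polynomial ℤ).coeff i

/-- `p ↦ ∑_{j<n} p_j (aX+b)^j (cX+d)^(n-1-j)` -/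
def polyAct (n : ℕ) (a b c d : ℤ) : Polynomial ℂ →ₗ[ℂ] Polynomial ℂ where
  toFun p := ∑ j ∈ Finset.range n, Polynomial.C (p.coeff j) *
    ((Polynomial.C (a : ℂ) * Polynomial.X + Polynomial.C (b : ℂ)) ^ j *
      (Polynomial.C (c : ℂ) * Polynomial.X + Polynomial.C (d : ℂ)) ^ (n - 1 - j))
  map_add' p q := by
    simp only [Polynomial.coeff_add, map_add, add_mul, Finset.sum_add_distrib]
  map_smul' r p := by
    simp only [Polynomial.coeff_smul, smul_eq_mul, map_mul, RingHom.id_apply, Finset.smul_sum]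
    refine Finset.sum_congr rfl fun j _ => ?_
    rw [Polynomial.smul_eq_C_mul, mul_assoc]

theorem polyAct_apply (n : ℕ) (a b c d : ℤ) (p : Polynomial ℂ) :
    polyAct n a b c d p = ∑ j ∈ Finset.range n, Polynomial.C (p.coeff j) *
    ((Polynomial.C (a : ℂ) * Polynomial.X + Polynomial.C (b : ℂ)) ^ j *
      (Polynomial.C (c : ℂ) * Polynomial.X + Polynomial.C (d : ℂ)) ^ (n - 1 - j)) := rfl

theorem map_actPoly (n : ℕ) (a b c d : ℤ) (j : ℕ) :
    Polynomial.map (Int.castRingHom ℂ)
      ((Polynomial.C a * Polynomial.X + Polynomial.C b) ^ j *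
        (Polynomial.C c * Polynomial.X + Polynomial.C d) ^ (n - 1 - j) : Polynomial ℤ) =
    (Polynomial.C (a : ℂ) * Polynomial.X + Polynomial.C (b : ℂ)) ^ j *
      (Polynomial.C (c : ℂ) * Polynomial.X + Polynomial.C (d : ℂ)) ^ (n - 1 - j) := by
  simp [Polynomial.map_mul, Polynomial.map_pow, Polynomial.map_add]

theorem polyAct_coeff (n : ℕ) (a b c d : ℤ) (p : Polynomial ℂ) (i : ℕ) :
    (polyAct n a b c d p).coeff i =
      ∑ j ∈ Finset.range n, (actCoeff n a b c d i j : ℂ) * p.coeff j := by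
  rw [polyAct_apply, Polynomial.finsetSum_coeff]
  refine Finset.sum_congr rfl fun j _ => ?_
  rw [Polynomial.coeff_C_mul, ← map_actPoly, Polynomial.coeff_map, actCoeff, mul_comm]
  simp

theorem polyAct_degree_lt (n : ℕ) (a b c d : ℤ) (p : Polynomial ℂ) :
    (polyAct n a b c d p).degree < n := by
  rw [polyAct_apply]
  refine lt_of_le_of_lt (Polynomial.degree_sum_le _ _) ?_
  rw [Finset.sup_lt_iff (by exact WithBot.bot_lt_coe n)]
  intro j hj
  have hj' : j < n := Finset.mem_range.mp hj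
  have h1 : (Polynomial.C (a : ℂ) * Polynomial.X + Polynomial.C (b : ℂ)).degree ≤ 1 :=
    Polynomial.degree_linear_le
  have h2 : (Polynomial.C (c : ℂ) * Polynomial.X + Polynomial.C (d : ℂ)).degree ≤ 1 :=
    Polynomial.degree_linear_le
  have h3 : ((Polynomial.C (a : ℂ) * Polynomial.X + Polynomial.C (b : ℂ)) ^ j).degree
      ≤ (j : WithBot ℕ) := by
    refine (Polynomial.degree_pow_le _ _).trans ?_
    calc j • (Polynomial.C (a : ℂ) * Polynomial.X + Polynomial.C (b : ℂ)).degree
        ≤ j • (1 : WithBot ℕ) := nsmul_le_nsmul_right h1 j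
      _ = (j : WithBot ℕ) := by simp
  have h4 : ((Polynomial.C (c : ℂ) * Polynomial.X + Polynomial.C (d : ℂ)) ^ (n - 1 - j)).degree
      ≤ ((n - 1 - j : ℕ) : WithBot ℕ) := by
    refine (Polynomial.degree_pow_le _ _).trans ?_
    calc (n - 1 - j) • (Polynomial.C (c : ℂ) * Polynomial.X + Polynomial.C (d : ℂ)).degree
        ≤ (n - 1 - j) • (1 : WithBot ℕ) := nsmul_le_nsmul_right h2 _
      _ = ((n - 1 - j : ℕ) : WithBot ℕ) := by simp
  calc (Polynomial.C (p.coeff j) *
      ((Polynomial.C (a : ℂ) * Polynomial.X + Polynomial.C (b : ℂ)) ^ j *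
        (Polynomial.C (c : ℂ) * Polynomial.X + Polynomial.C (d : ℂ)) ^ (n - 1 - j))).degree
      ≤ (Polynomial.C (p.coeff j)).degree +
        ((Polynomial.C (a : ℂ) * Polynomial.X + Polynomial.C (b : ℂ)) ^ j *
        (Polynomial.C (c : ℂ) * Polynomial.X + Polynomial.C (d : ℂ)) ^ (n - 1 - j)).degree :=
        Polynomial.degree_mul_le _ _
    _ ≤ 0 + ((j : WithBot ℕ) + ((n - 1 - j : ℕ) : WithBot ℕ)) := by
        refine add_le_add Polynomial.degree_C_le ?_
        exact (Polynomial.degree_mul_le _ _).trans (add_le_add h3 h4)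
    _ = ((j + (n - 1 - j) : ℕ) : WithBot ℕ) := by simp
    _ < (n : WithBot ℕ) := by
        exact_mod_cast (by omega : j + (n - 1 - j) < n)

theorem eval_eq_sum_range_of_degree_lt {n : ℕ} {p : Polynomial ℂ} (hp : p.degree < n) (z : ℂ) :
    p.eval z = ∑ j ∈ Finset.range n, p.coeff j * z ^ j := by
  rcases eq_or_ne p 0 with rfl | hp0
  · simp
  · have hnat : p.natDegree < n := (Polynomial.natDegree_lt_iff_degree_lt hp0).mpr hp
    rw [Polynomial.eval_eq_sum_range' hnat]

/-- slash action of an integral matrix of positive determinant on a polynomial function. -/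
theorem slash_poly (n : ℕ) (g : GL (Fin 2) ℝ) (a b c d : ℤ)
    (hg : g.val = !![(a : ℝ), (b : ℝ); (c : ℝ), (d : ℝ)]) (hdet : 0 < g.val.det)
    (p : Polynomial ℂ) (hp : p.degree < n) :
    (fun τ : ℍ => p.eval (τ : ℂ)) ∣[(1 : ℤ) - n] g =
      ((g.val.det : ℂ)⁻¹) ^ n • fun τ : ℍ => (polyAct n a b c d p).eval (τ : ℂ) := by
  have hdet' : 0 < g.det.val := by
    rw [Matrix.GeneralLinearGroup.val_det_apply]; exact hdet
  have hσ : ∀ z : ℂ, σ g z = z := fun z => by
    rw [σ, if_pos hdet']; rfl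
  have h00 : g 0 0 = (a : ℝ) := by
    show g.val 0 0 = _; rw [hg]; rfl
  have h01 : g 0 1 = (b : ℝ) := by
    show g.val 0 1 = _; rw [hg]; rfl
  have h10 : g 1 0 = (c : ℝ) := by
    show g.val 1 0 = _; rw [hg]; rfl
  have h11 : g 1 1 = (d : ℝ) := by
    show g.val 1 1 = _; rw [hg]; rfl
  ext τ
  have hden : denom g τ ≠ 0 := denom_ne_zero g τ
  have hnum_eq : num g τ = (a : ℂ) * τ + b := by
    rw [num, h00, h01]; push_cast; rfl
  have hden_eq : denom g τ = (c : ℂ) * τ + d := by
    rw [denom, h10, h11]; push_cast; rfl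
  rw [ModularForm.slash_apply, hσ, coe_smul_of_det_pos hdet']
  simp only [Pi.smul_apply, smul_eq_mul]
  rcases Nat.eq_zero_or_pos n with rfl | hn
  · have hp0 : p = 0 := by
      rw [← Polynomial.degree_eq_bot]
      have : p.degree < (0 : ℕ) := hp
      rw [Nat.cast_zero, Nat.WithBot.lt_zero_iff] at this
      exact this
    subst hp0
    simp
  · rw [eval_eq_sum_range_of_degree_lt hp, polyAct_apply, Polynomial.eval_finsetSum]
    have hdetR : |g.det.val| = g.val.det := by
      rw [abs_of_pos hdet', Matrix.GeneralLinearGroup.val_det_apply]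
    rw [hdetR]
    have e1 : ((1 : ℤ) - (n : ℤ) - 1) = -(n : ℤ) := by ring
    have e2 : -((1 : ℤ) - (n : ℤ)) = ((n - 1 : ℕ) : ℤ) := by
      rw [Nat.cast_sub hn]; push_cast; ring
    rw [e1, e2, zpow_neg, zpow_natCast, zpow_natCast, ← inv_pow]
    rw [Finset.sum_mul, Finset.sum_mul, Finset.mul_sum]
    refine Finset.sum_congr rfl fun j hj => ?_
    have hj' : j < n := Finset.mem_range.mp hj
    have hsplit : n - 1 = j + (n - 1 - j) := by omega
    simp only [Polynomial.eval_mul, Polynomial.eval_C, Polynomial.eval_pow, Polynomial.eval_add,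
      Polynomial.eval_X]
    rw [← hnum_eq, ← hden_eq, div_pow]
    conv_lhs => rw [hsplit, pow_add]
    field_simp

end

end Fermat.Agent.S22
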