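import Mathlib
import Fermat.Agent.S22.Eich
import Fermat.Agent.S22.PolyAction

/-! Period polynomials of cusp forms on `Gamma0 N`. -/

set_option autoImplicit false

namespace Fermat.Agent.S22

open UpperHalfPlane ModularForm CongruenceSubgroup
open scoped Manifold MatrixGroups ModularForm Derivative

noncomputable section

/-- The period function of `f` at `γ`. -/
def periodFun (n : ℕ) (f : ℍ → ℂ) (γ : SL(2, ℤ)) : ℍ → ℂ :=
  (eich n f) ∣[(1 : ℤ) - n] (Matrix.SpecialLinearGroup.mapGL ℝ γ) - eich n f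

theorem det_mapGL_eq_one (γ : SL(2, ℤ)) :
    (Matrix.SpecialLinearGroup.mapGL ℝ γ : GL (Fin 2) ℝ).val.det = 1 := by
  rw [← Matrix.GeneralLinearGroup.val_det_apply]
  simp

theorem exists_periodPoly {N n : ℕ} [NeZero N] (f : CuspForm (Gamma0 N) ((n : ℤ) + 1))
    (γ : SL(2, ℤ)) (hγ : γ ∈ Gamma0 N) :
    ∃ p : Polynomial ℂ, p.degree < n ∧ ∀ τ : ℍ, periodFun n f γ τ = p.eval (τ : ℂ) := by
  have hF : IsEich n f (eich n f) := isEich_eich_cuspForm n f
  obtain ⟨hd, -, hD⟩ := hF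
  have hdet : (Matrix.SpecialLinearGroup.mapGL ℝ γ : GL (Fin 2) ℝ).val.det = 1 :=
    det_mapGL_eq_one γ
  have hpos : 0 < (Matrix.SpecialLinearGroup.mapGL ℝ γ : GL (Fin 2) ℝ).val.det := by
    rw [hdet]; exact one_pos
  have hinv : (⇑f) ∣[(n : ℤ) + 1] (Matrix.SpecialLinearGroup.mapGL ℝ γ) = ⇑f :=
    SlashInvariantFormClass.slash_action_eq f _ (Subgroup.mem_map_of_mem _ hγ)
  have hQ : MDiff (periodFun n f γ) := (hd.slash _ _).sub hd
  have hDQ : D^[n] (periodFun n f γ) = 0 := by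
    rw [periodFun, iterate_D_sub n (hd.slash _ _) hd, bol n hd _ hpos, hdet, hD, hinv]
    simp
  exact exists_poly_of_iterate_D_eq_zero n hQ hDQ

/-- The period polynomial. -/
def periodPoly (n N : ℕ) [NeZero N] (γ : Gamma0 N) (f : CuspForm (Gamma0 N) ((n : ℤ) + 1)) :
    Polynomial ℂ :=
  (exists_periodPoly f γ γ.2).choose

variable {n N : ℕ} [NeZero N]

theorem periodPoly_degree_lt (γ : Gamma0 N) (f : CuspForm (Gamma0 N) ((n : ℤ) + 1)) :
    (periodPoly n N γ f).degree < n :=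
  (exists_periodPoly f γ γ.2).choose_spec.1

theorem periodPoly_spec (γ : Gamma0 N) (f : CuspForm (Gamma0 N) ((n : ℤ) + 1)) (τ : ℍ) :
    periodFun n f γ τ = (periodPoly n N γ f).eval (τ : ℂ) :=
  (exists_periodPoly f γ γ.2).choose_spec.2 τ

theorem eich_add_cuspForm (f g : CuspForm (Gamma0 N) ((n : ℤ) + 1)) :
    eich n ⇑(f + g) = eich n f + eich n g := by
  have h := (isEich_eich_cuspForm n f).add (isEich_eich_cuspForm n g)
  rw [FunLike.coe_add]
  exact h.eich_eq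

theorem eich_smul_cuspForm (c : ℂ) (f : CuspForm (Gamma0 N) ((n : ℤ) + 1)) :
    eich n ⇑(c • f) = c • eich n f := by
  have h := (isEich_eich_cuspForm n f).smul c
  have hc : ⇑(c • f) = c • ⇑f := by
    ext τ; rfl
  rw [hc]
  exact h.eich_eq

theorem periodFun_add (γ : Gamma0 N) (f g : CuspForm (Gamma0 N) ((n : ℤ) + 1)) :
    periodFun n ⇑(f + g) γ = periodFun n f γ + periodFun n g γ := by
  rw [periodFun, periodFun, periodFun, eich_add_cuspForm, SlashAction.add_slash]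
  abel

theorem periodFun_smul (γ : Gamma0 N) (c : ℂ) (f : CuspForm (Gamma0 N) ((n : ℤ) + 1)) :
    periodFun n ⇑(c • f) γ = c • periodFun n f γ := by
  rw [periodFun, periodFun, eich_smul_cuspForm, smul_sub]
  congr 1
  exact ModularForm.SL_smul_slash _ (γ : SL(2, ℤ)) _ _

theorem periodPoly_add (γ : Gamma0 N) (f g : CuspForm (Gamma0 N) ((n : ℤ) + 1)) :
    periodPoly n N γ (f + g) = periodPoly n N γ f + periodPoly n N γ g := by
  apply poly_eq_of_eval_eq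
  intro τ
  rw [Polynomial.eval_add, ← periodPoly_spec, ← periodPoly_spec, ← periodPoly_spec,
    periodFun_add, Pi.add_apply]

theorem periodPoly_smul (γ : Gamma0 N) (c : ℂ) (f : CuspForm (Gamma0 N) ((n : ℤ) + 1)) :
    periodPoly n N γ (c • f) = c • periodPoly n N γ f := by
  apply poly_eq_of_eval_eq
  intro τ
  rw [Polynomial.eval_smul, ← periodPoly_spec, ← periodPoly_spec, periodFun_smul, Pi.smul_apply]

theorem periodPoly_one (f : CuspForm (Gamma0 N) ((n : ℤ) + 1)) :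
    periodPoly n N 1 f = 0 := by
  apply poly_eq_of_eval_eq
  intro τ
  rw [← periodPoly_spec, Polynomial.eval_zero, periodFun]
  simp

theorem periodFun_eq_eval (γ : Gamma0 N) (f : CuspForm (Gamma0 N) ((n : ℤ) + 1)) :
    periodFun n f γ = fun τ : ℍ => (periodPoly n N γ f).eval (τ : ℂ) :=
  funext fun τ => periodPoly_spec γ f τ

theorem eich_slash_eq (γ : Gamma0 N) (f : CuspForm (Gamma0 N) ((n : ℤ) + 1)) :
    (eich n f) ∣[(1 : ℤ) - n] (Matrix.SpecialLinearGroup.mapGL ℝ (γ : SL(2, ℤ))) =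
      eich n f + fun τ : ℍ => (periodPoly n N γ f).eval (τ : ℂ) := by
  rw [← periodFun_eq_eval, periodFun]
  abel

/-- cocycle relation -/
theorem periodPoly_mul (γ₁ γ₂ : Gamma0 N) (f : CuspForm (Gamma0 N) ((n : ℤ) + 1)) :
    periodPoly n N (γ₁ * γ₂) f =
      polyAct n ((γ₂ : SL(2, ℤ)) 0 0) ((γ₂ : SL(2, ℤ)) 0 1) ((γ₂ : SL(2, ℤ)) 1 0)
        ((γ₂ : SL(2, ℤ)) 1 1) (periodPoly n N γ₁ f) + periodPoly n N γ₂ f := by
  apply poly_eq_of_eval_eq
  intro τ
  have hdet : (Matrix.SpecialLinearGroup.mapGL ℝ (γ₂ : SL(2, ℤ)) : GL (Fin 2) ℝ).val.det = 1 :=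
    det_mapGL_eq_one _
  have hpos : 0 < (Matrix.SpecialLinearGroup.mapGL ℝ (γ₂ : SL(2, ℤ)) : GL (Fin 2) ℝ).val.det := by
    rw [hdet]; exact one_pos
  have hval : (Matrix.SpecialLinearGroup.mapGL ℝ (γ₂ : SL(2, ℤ)) : GL (Fin 2) ℝ).val =
      !![(((γ₂ : SL(2, ℤ)) 0 0 : ℤ) : ℝ), (((γ₂ : SL(2, ℤ)) 0 1 : ℤ) : ℝ);
        (((γ₂ : SL(2, ℤ)) 1 0 : ℤ) : ℝ), (((γ₂ : SL(2, ℤ)) 1 1 : ℤ) : ℝ)] := by
    ext i j
    fin_cases i <;> fin_cases j <;> simp
  have key : periodFun n f ((γ₁ * γ₂ : Gamma0 N) : SL(2, ℤ)) =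
      (fun τ : ℍ => (polyAct n ((γ₂ : SL(2, ℤ)) 0 0) ((γ₂ : SL(2, ℤ)) 0 1)
        ((γ₂ : SL(2, ℤ)) 1 0) ((γ₂ : SL(2, ℤ)) 1 1) (periodPoly n N γ₁ f)).eval (τ : ℂ)) +
        periodFun n f γ₂ := by
    rw [periodFun, periodFun, Subgroup.coe_mul, map_mul, SlashAction.slash_mul, eich_slash_eq γ₁ f,
      SlashAction.add_slash,
      slash_poly n _ _ _ _ _ hval hpos _ (periodPoly_degree_lt γ₁ f), hdet]
    simp only [Complex.ofReal_one, inv_one, one_pow, one_smul]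
    abel
  rw [← periodPoly_spec, key, Pi.add_apply, Polynomial.eval_add, ← periodPoly_spec]

theorem periodPoly_eq_zero_iff (γ : Gamma0 N) (f : CuspForm (Gamma0 N) ((n : ℤ) + 1)) :
    periodPoly n N γ f = 0 ↔
      (eich n f) ∣[(1 : ℤ) - n] (Matrix.SpecialLinearGroup.mapGL ℝ (γ : SL(2, ℤ))) = eich n f := by
  constructor
  · intro h
    rw [eich_slash_eq, h]
    simp
    rfl
  · intro h
    apply poly_eq_of_eval_eq
    intro τ
    rw [← periodPoly_spec, Polynomial.eval_zero, periodFun, h, sub_self, Pi.zero_apply]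

end

end Fermat.Agent.S22
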