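import Mathlib
import Fermat.Prelude.Def_CuspForm_HeckeAlgebra
import Fermat.Prelude.Sol.S_ModularForm_heckeT_slash_eq_self_of_mem_Gamma0
import Fermat.Agent.S22.HeckeEich
import Fermat.Agent.S22.PeriodPoly

/-! Period polynomials of Hecke images. -/

set_option autoImplicit false

namespace Fermat.Agent.S22

open UpperHalfPlane ModularForm CongruenceSubgroup
open scoped Manifold MatrixGroups ModularForm Derivative
open P2MW.S_ModularForm_heckeT_slash_eq_self_of_mem_Gamma0.ModularForm.HeckeSlashInvariance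
  (heckeRep heckeRep_mul redMatrix heckeMatrix_mul_of_dvd affinePerm heckeT_eq_sum_onePoint
    heckeU_eq_sum_zmod)

noncomputable section

theorem isEich_heckeT (n : ℕ) {ℓ : ℕ} [NeZero ℓ] {f F : ℍ → ℂ} (hF : IsEich n f F) :
    IsEich n (heckeT ((n : ℤ) + 1) ℓ f)
      ((ℓ : ℂ) ^ n • ∑ x : OnePoint (ZMod ℓ), F ∣[(1 : ℤ) - n] heckeRep ℓ x) := by
  obtain ⟨hd, hz, hD⟩ := hF
  rw [← heckeT_eq_sum_onePoint]
  refine ⟨(mdifferentiable_heckeT hd _ ℓ).const_smul _,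
    (isZeroAtImInfty_heckeT' _ ℓ hz).smul _, ?_⟩
  rw [iterate_D_heckeT n (NeZero.ne ℓ) hd, hD]

theorem isEich_heckeU (n : ℕ) {q : ℕ} [NeZero q] {f F : ℍ → ℂ} (hF : IsEich n f F) :
    IsEich n (heckeU ((n : ℤ) + 1) q f)
      ((q : ℂ) ^ n • ∑ x : ZMod q, F ∣[(1 : ℤ) - n] heckeMatrix q x.val) := by
  obtain ⟨hd, hz, hD⟩ := hF
  rw [← heckeU_eq_sum_zmod]
  refine ⟨(mdifferentiable_heckeU hd _ q).const_smul _,
    (isZeroAtImInfty_heckeU' _ q hz).smul _, ?_⟩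
  rw [iterate_D_heckeU n (NeZero.ne q) hd, hD]

/-- Integer entries of `heckeRep ℓ x`. -/
def repEntry (ℓ : ℕ) (x : OnePoint (ZMod ℓ)) : ℤ × ℤ × ℤ × ℤ :=
  x.elim ((ℓ : ℤ), 0, 0, 1) (fun j => (1, (j.val : ℤ), 0, (ℓ : ℤ)))

theorem heckeRep_val {ℓ : ℕ} (hℓ : ℓ ≠ 0) (x : OnePoint (ZMod ℓ)) :
    (heckeRep ℓ x).val = !![((repEntry ℓ x).1 : ℝ), ((repEntry ℓ x).2.1 : ℝ);
      ((repEntry ℓ x).2.2.1 : ℝ), ((repEntry ℓ x).2.2.2 : ℝ)] := by
  induction x using OnePoint.rec with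
  | infty =>
    show (heckeDiagMatrix ℓ).val = _
    rw [val_heckeDiagMatrix hℓ]
    simp [repEntry]
  | coe j =>
    show (heckeMatrix ℓ j.val).val = _
    rw [val_heckeMatrix hℓ]
    simp [repEntry]

theorem heckeRep_det {ℓ : ℕ} (hℓ : ℓ ≠ 0) (x : OnePoint (ZMod ℓ)) :
    (heckeRep ℓ x).val.det = ℓ := by
  induction x using OnePoint.rec with
  | infty =>
    show (heckeDiagMatrix ℓ).val.det = _
    rw [← Matrix.GeneralLinearGroup.val_det_apply, det_heckeDiagMatrix hℓ]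
  | coe j =>
    show (heckeMatrix ℓ j.val).val.det = _
    rw [← Matrix.GeneralLinearGroup.val_det_apply, det_heckeMatrix hℓ]

variable {n N : ℕ} [NeZero N]

/-- slash of a polynomial function by a Hecke representative, rescaled. -/
theorem smul_slash_heckeRep_poly {ℓ : ℕ} (hℓ : ℓ ≠ 0) (x : OnePoint (ZMod ℓ))
    (p : Polynomial ℂ) (hp : p.degree < n) :
    (ℓ : ℂ) ^ n • ((fun τ : ℍ => p.eval (τ : ℂ)) ∣[(1 : ℤ) - n] heckeRep ℓ x) =
      fun τ : ℍ => (polyAct n (repEntry ℓ x).1 (repEntry ℓ x).2.1 (repEntry ℓ x).2.2.1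
        (repEntry ℓ x).2.2.2 p).eval (τ : ℂ) := by
  have hdet : (heckeRep ℓ x).val.det = ℓ := heckeRep_det hℓ x
  have hpos : 0 < (heckeRep ℓ x).val.det := by
    rw [hdet]; exact_mod_cast Nat.pos_of_ne_zero hℓ
  rw [slash_poly n (heckeRep ℓ x) _ _ _ _ (heckeRep_val hℓ x) hpos p hp, hdet, smul_smul]
  have hℓ' : (ℓ : ℂ) ≠ 0 := by exact_mod_cast hℓ
  have : (ℓ : ℂ) ^ n * (((ℓ : ℝ) : ℂ)⁻¹) ^ n = 1 := by
    rw [Complex.ofReal_natCast, ← mul_pow, mul_inv_cancel₀ hℓ', one_pow]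
  rw [this, one_smul]

theorem periodPoly_heckeT {ℓ : ℕ} [NeZero ℓ] (hℓ : ℓ.Prime) (hℓN : ¬ ℓ ∣ N) (γ : Gamma0 N) :
    ∃ (γ' : OnePoint (ZMod ℓ) → Gamma0 N) (y : OnePoint (ZMod ℓ) → OnePoint (ZMod ℓ)),
      ∀ f : CuspForm (Gamma0 N) ((n : ℤ) + 1),
        periodPoly n N γ (CuspForm.heckeTLin ((n : ℤ) + 1) hℓ hℓN f) =
          ∑ x : OnePoint (ZMod ℓ),
            polyAct n (repEntry ℓ (y x)).1 (repEntry ℓ (y x)).2.1 (repEntry ℓ (y x)).2.2.1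
              (repEntry ℓ (y x)).2.2.2 (periodPoly n N (γ' x) f) := by
  have : Fact ℓ.Prime := ⟨hℓ⟩
  have hγN : (N : ℤ) ∣ (γ : SL(2, ℤ)) 1 0 :=
    (ZMod.intCast_zmod_eq_zero_iff_dvd _ _).mp (Gamma0_mem.mp γ.2)
  choose g' hg'N hg'mul using heckeRep_mul hℓN (γ : SL(2, ℤ)) hγN
  refine ⟨fun x => ⟨g' x, Gamma0_mem.mpr ((ZMod.intCast_zmod_eq_zero_iff_dvd _ _).mpr (hg'N x))⟩,
    fun x => redMatrix ℓ (γ : SL(2, ℤ)) • x, fun f => ?_⟩
  apply poly_eq_of_eval_eq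
  intro τ
  rw [← periodPoly_spec, Polynomial.eval_finsetSum]
  set F := eich n f with hFdef
  have hF : IsEich n f F := isEich_eich_cuspForm n f
  have hT : eich n (CuspForm.heckeTLin ((n : ℤ) + 1) hℓ hℓN f) =
      (ℓ : ℂ) ^ n • ∑ x : OnePoint (ZMod ℓ), F ∣[(1 : ℤ) - n] heckeRep ℓ x :=
    (isEich_heckeT n hF).eich_eq
  have key : periodFun n (CuspForm.heckeTLin ((n : ℤ) + 1) hℓ hℓN f) (γ : SL(2, ℤ)) =
      ∑ x : OnePoint (ZMod ℓ), fun τ : ℍ =>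
        (polyAct n (repEntry ℓ (redMatrix ℓ (γ : SL(2, ℤ)) • x)).1
          (repEntry ℓ (redMatrix ℓ (γ : SL(2, ℤ)) • x)).2.1
          (repEntry ℓ (redMatrix ℓ (γ : SL(2, ℤ)) • x)).2.2.1
          (repEntry ℓ (redMatrix ℓ (γ : SL(2, ℤ)) • x)).2.2.2
          (periodPoly n N ⟨g' x, Gamma0_mem.mpr
            ((ZMod.intCast_zmod_eq_zero_iff_dvd _ _).mpr (hg'N x))⟩ f)).eval (τ : ℂ) := by
    rw [periodFun, hT]
    have h1 : ((ℓ : ℂ) ^ n • ∑ x : OnePoint (ZMod ℓ), F ∣[(1 : ℤ) - n] heckeRep ℓ x)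
        ∣[(1 : ℤ) - n] (Matrix.SpecialLinearGroup.mapGL ℝ (γ : SL(2, ℤ))) =
        (ℓ : ℂ) ^ n • ∑ x : OnePoint (ZMod ℓ),
          (F ∣[(1 : ℤ) - n] heckeRep ℓ x) ∣[(1 : ℤ) - n]
            (Matrix.SpecialLinearGroup.mapGL ℝ (γ : SL(2, ℤ))) := by
      rw [← SlashAction.sum_slash]
      exact ModularForm.SL_smul_slash _ (γ : SL(2, ℤ)) _ _
    rw [h1, ← smul_sub, ← Finset.sum_sub_distrib]
    have h2 : ∀ x : OnePoint (ZMod ℓ),
        (F ∣[(1 : ℤ) - n] heckeRep ℓ x) ∣[(1 : ℤ) - n]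
            (Matrix.SpecialLinearGroup.mapGL ℝ (γ : SL(2, ℤ))) =
          F ∣[(1 : ℤ) - n] heckeRep ℓ (redMatrix ℓ (γ : SL(2, ℤ)) • x) +
            (fun τ : ℍ => (periodPoly n N ⟨g' x, Gamma0_mem.mpr
              ((ZMod.intCast_zmod_eq_zero_iff_dvd _ _).mpr (hg'N x))⟩ f).eval (τ : ℂ))
              ∣[(1 : ℤ) - n] heckeRep ℓ (redMatrix ℓ (γ : SL(2, ℤ)) • x) := by
      intro x
      rw [← SlashAction.slash_mul, hg'mul x, SlashAction.slash_mul, ← SlashAction.add_slash]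
      congr 1
      exact eich_slash_eq ⟨g' x, _⟩ f
    simp_rw [h2]
    rw [Finset.sum_sub_distrib, Finset.sum_add_distrib]
    have h3 : ∑ x : OnePoint (ZMod ℓ),
        F ∣[(1 : ℤ) - n] heckeRep ℓ (redMatrix ℓ (γ : SL(2, ℤ)) • x) =
        ∑ x : OnePoint (ZMod ℓ), F ∣[(1 : ℤ) - n] heckeRep ℓ x :=
      Equiv.sum_comp (MulAction.toPerm (redMatrix ℓ (γ : SL(2, ℤ))))
        (fun x => F ∣[(1 : ℤ) - n] heckeRep ℓ x)
    rw [h3, add_sub_cancel_left, Finset.smul_sum]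
    refine Finset.sum_congr rfl fun x _ => ?_
    exact smul_slash_heckeRep_poly hℓ.ne_zero _ _ (periodPoly_degree_lt _ f)
  rw [key, Finset.sum_apply]

/-- slash of a polynomial function by `heckeMatrix q j`, rescaled. -/
theorem smul_slash_heckeMatrix_poly {q : ℕ} (hq : q ≠ 0) (j : ℕ)
    (p : Polynomial ℂ) (hp : p.degree < n) :
    (q : ℂ) ^ n • ((fun τ : ℍ => p.eval (τ : ℂ)) ∣[(1 : ℤ) - n] heckeMatrix q j) =
      fun τ : ℍ => (polyAct n 1 (j : ℤ) 0 (q : ℤ) p).eval (τ : ℂ) := by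
  have hdet : (heckeMatrix q j).val.det = q := by
    rw [← Matrix.GeneralLinearGroup.val_det_apply, det_heckeMatrix hq]
  have hpos : 0 < (heckeMatrix q j).val.det := by
    rw [hdet]; exact_mod_cast Nat.pos_of_ne_zero hq
  have hval : (heckeMatrix q j).val =
      !![((1 : ℤ) : ℝ), ((j : ℤ) : ℝ); ((0 : ℤ) : ℝ), ((q : ℤ) : ℝ)] := by
    rw [val_heckeMatrix hq]; simp
  rw [slash_poly n (heckeMatrix q j) _ _ _ _ hval hpos p hp, hdet, smul_smul]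
  have hq' : (q : ℂ) ≠ 0 := by exact_mod_cast hq
  have : (q : ℂ) ^ n * (((q : ℝ) : ℂ)⁻¹) ^ n = 1 := by
    rw [Complex.ofReal_natCast, ← mul_pow, mul_inv_cancel₀ hq', one_pow]
  rw [this, one_smul]

theorem periodPoly_heckeU {q : ℕ} [NeZero q] (hqN : q ∣ N) (γ : Gamma0 N) :
    ∃ (γ' : ZMod q → Gamma0 N) (y : ZMod q → ZMod q),
      ∀ f : CuspForm (Gamma0 N) ((n : ℤ) + 1),
        periodPoly n N γ (CuspForm.heckeULin ((n : ℤ) + 1) hqN f) =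
          ∑ x : ZMod q,
            polyAct n 1 ((y x).val : ℤ) 0 (q : ℤ) (periodPoly n N (γ' x) f) := by
  have hγN : (N : ℤ) ∣ (γ : SL(2, ℤ)) 1 0 :=
    (ZMod.intCast_zmod_eq_zero_iff_dvd _ _).mp (Gamma0_mem.mp γ.2)
  have hc : (q : ℤ) ∣ (γ : SL(2, ℤ)) 1 0 := (Int.natCast_dvd_natCast.mpr hqN).trans hγN
  choose g' hg'c hg'mul using heckeMatrix_mul_of_dvd (γ : SL(2, ℤ)) hc
  have hg'N : ∀ x, g' x ∈ Gamma0 N := fun x =>
    Gamma0_mem.mpr ((ZMod.intCast_zmod_eq_zero_iff_dvd _ _).mpr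
      ((hg'c x) ▸ Dvd.dvd.mul_left hγN _))
  refine ⟨fun x => ⟨g' x, hg'N x⟩,
    fun x => affinePerm (γ : SL(2, ℤ)) ((ZMod.intCast_zmod_eq_zero_iff_dvd _ _).mpr hc) x,
    fun f => ?_⟩
  apply poly_eq_of_eval_eq
  intro τ
  rw [← periodPoly_spec, Polynomial.eval_finsetSum]
  set F := eich n f with hFdef
  have hF : IsEich n f F := isEich_eich_cuspForm n f
  have hT : eich n (CuspForm.heckeULin ((n : ℤ) + 1) hqN f) =
      (q : ℂ) ^ n • ∑ x : ZMod q, F ∣[(1 : ℤ) - n] heckeMatrix q x.val :=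
    (isEich_heckeU n hF).eich_eq
  set y : ZMod q → ZMod q :=
    fun x => affinePerm (γ : SL(2, ℤ)) ((ZMod.intCast_zmod_eq_zero_iff_dvd _ _).mpr hc) x with hy
  have key : periodFun n (CuspForm.heckeULin ((n : ℤ) + 1) hqN f) (γ : SL(2, ℤ)) =
      ∑ x : ZMod q, fun τ : ℍ =>
        (polyAct n 1 ((y x).val : ℤ) 0 (q : ℤ)
          (periodPoly n N ⟨g' x, hg'N x⟩ f)).eval (τ : ℂ) := by
    rw [periodFun, hT]
    have h1 : ((q : ℂ) ^ n • ∑ x : ZMod q, F ∣[(1 : ℤ) - n] heckeMatrix q x.val)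
        ∣[(1 : ℤ) - n] (Matrix.SpecialLinearGroup.mapGL ℝ (γ : SL(2, ℤ))) =
        (q : ℂ) ^ n • ∑ x : ZMod q,
          (F ∣[(1 : ℤ) - n] heckeMatrix q x.val) ∣[(1 : ℤ) - n]
            (Matrix.SpecialLinearGroup.mapGL ℝ (γ : SL(2, ℤ))) := by
      rw [← SlashAction.sum_slash]
      exact ModularForm.SL_smul_slash _ (γ : SL(2, ℤ)) _ _
    rw [h1, ← smul_sub, ← Finset.sum_sub_distrib]
    have h2 : ∀ x : ZMod q,
        (F ∣[(1 : ℤ) - n] heckeMatrix q x.val) ∣[(1 : ℤ) - n]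
            (Matrix.SpecialLinearGroup.mapGL ℝ (γ : SL(2, ℤ))) =
          F ∣[(1 : ℤ) - n] heckeMatrix q (y x).val +
            (fun τ : ℍ => (periodPoly n N ⟨g' x, hg'N x⟩ f).eval (τ : ℂ))
              ∣[(1 : ℤ) - n] heckeMatrix q (y x).val := by
      intro x
      rw [← SlashAction.slash_mul, hg'mul x, SlashAction.slash_mul, ← SlashAction.add_slash]
      congr 1
      exact eich_slash_eq ⟨g' x, _⟩ f
    simp_rw [h2]
    rw [Finset.sum_sub_distrib, Finset.sum_add_distrib]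
    have h3 : ∑ x : ZMod q, F ∣[(1 : ℤ) - n] heckeMatrix q (y x).val =
        ∑ x : ZMod q, F ∣[(1 : ℤ) - n] heckeMatrix q x.val :=
      Equiv.sum_comp (affinePerm (γ : SL(2, ℤ)) ((ZMod.intCast_zmod_eq_zero_iff_dvd _ _).mpr hc))
        (fun x => F ∣[(1 : ℤ) - n] heckeMatrix q x.val)
    rw [h3, add_sub_cancel_left, Finset.smul_sum]
    refine Finset.sum_congr rfl fun x _ => ?_
    exact smul_slash_heckeMatrix_poly (NeZero.ne q) _ _ (periodPoly_degree_lt _ f)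
  rw [key, Finset.sum_apply]

end

end Fermat.Agent.S22
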