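import Mathlib

set_option autoImplicit false

namespace Fermat.Agent.S22

open scoped MatrixGroups ModularGroup

theorem SL2Z_fg : Group.FG SL(2, ℤ) := by
  rw [Group.fg_iff]
  exact ⟨{ModularGroup.S, ModularGroup.T}, SpecialLinearGroup.SL2Z_generators, Set.toFinite _⟩

theorem Gamma0_fg (N : ℕ) [NeZero N] : Group.FG (CongruenceSubgroup.Gamma0 N) := by
  have : Group.FG SL(2, ℤ) := SL2Z_fg
  exact Subgroup.fg_of_index_ne_zero (CongruenceSubgroup.Gamma0 N)

end Fermat.Agent.S22
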