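import Mathlib

set_option autoImplicit false

namespace Fermat.Agent.S22

theorem comp_mem_of_mem_adjoin {V : Type*} [AddCommGroup V] [Module ℂ V]
    (s : Set (Module.End ℂ V)) (Λ : Submodule ℤ (Module.Dual ℂ V))
    (hstab : ∀ t ∈ s, ∀ l ∈ Λ, l ∘ₗ t ∈ Λ) {t : Module.End ℂ V}
    (ht : t ∈ Algebra.adjoin ℤ s) : ∀ l ∈ Λ, l ∘ₗ t ∈ Λ := by
  induction ht using Algebra.adjoin_induction with
  | mem x hx => exact hstab x hx
  | algebraMap r =>
    intro l hl
    have : l ∘ₗ (algebraMap ℤ (Module.End ℂ V) r) = r • l := by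
      ext v
      simp
    rw [this]
    exact Λ.smul_mem r hl
  | add x y _ _ hx hy =>
    intro l hl
    rw [LinearMap.comp_add]
    exact Λ.add_mem (hx l hl) (hy l hl)
  | mul x y _ _ hx hy =>
    intro l hl
    have : l ∘ₗ (x * y) = (l ∘ₗ x) ∘ₗ y := rfl
    rw [this]
    exact hy _ (hx l hl)

theorem finite_adjoin_of_stable_lattice {V : Type*} [AddCommGroup V] [Module ℂ V]
    (s : Set (Module.End ℂ V)) (Λ : Submodule ℤ (Module.Dual ℂ V)) (hfg : Λ.FG)
    (hstab : ∀ t ∈ s, ∀ l ∈ Λ, l ∘ₗ t ∈ Λ)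
    (hsep : ∀ v : V, (∀ l ∈ Λ, l v = 0) → v = 0) :
    Module.Finite ℤ (Algebra.adjoin ℤ s) := by
  have hst : ∀ t : Algebra.adjoin ℤ s, ∀ l ∈ Λ, l ∘ₗ (t : Module.End ℂ V) ∈ Λ :=
    fun t => comp_mem_of_mem_adjoin s Λ hstab t.2
  have : Module.Finite ℤ Λ := Module.Finite.iff_fg.mpr hfg
  have : IsAddTorsionFree (Module.Dual ℂ V) := .of_isTorsionFree ℂ _
  have : Module.Free ℤ Λ := Module.free_of_finite_type_torsion_free'
  let φ : Algebra.adjoin ℤ s →ₗ[ℤ] Module.End ℤ Λ :=
    { toFun := fun t =>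
        { toFun := fun l => ⟨(l : Module.Dual ℂ V) ∘ₗ (t : Module.End ℂ V), hst t l l.2⟩
          map_add' := fun l l' => Subtype.ext (by simp [LinearMap.add_comp])
          map_smul' := fun r l => Subtype.ext (by simp [LinearMap.smul_comp]) }
      map_add' := fun t t' => by
        ext l : 2
        simp [LinearMap.comp_add]
      map_smul' := fun r t => by
        ext l : 2
        ext v
        simp }
  have hinj : Function.Injective φ := by
    rw [injective_iff_map_eq_zero]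
    intro t ht
    apply Subtype.ext
    ext v
    apply hsep
    intro l hl
    have h1 := congrArg (fun e : Module.End ℤ Λ => ((e ⟨l, hl⟩ : Λ) : Module.Dual ℂ V) v) ht
    simpa [φ] using h1
  exact Module.Finite.of_injective φ hinj

end Fermat.Agent.S22
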