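import Mathlib
import Fermat.Prelude.Thm_Subgroup_IsArithmetic_exists_nat_mem_strictPeriods_conj
import Fermat.Agent.S22.Eich

set_option autoImplicit false

namespace Fermat.Agent.S22

open UpperHalfPlane ModularForm Matrix.SpecialLinearGroup
open scoped Manifold MatrixGroups ModularForm Derivative Pointwise

noncomputable section

/-- slash by the unipotent matrix is translation. -/
theorem slash_upperRightHom_apply (k : ℤ) (F : ℍ → ℂ) (h : ℝ) (τ : ℍ) :
    (F ∣[k] (Matrix.GeneralLinearGroup.upperRightHom h : GL (Fin 2) ℝ)) τ = F (h +ᵥ τ) := by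
  have : Matrix.GeneralLinearGroup.upperRightHom h • τ = h +ᵥ τ := by
    ext
    simp [σ, num, denom, coe_vadd, UpperHalfPlane.coe_smul, add_comm]
  simp_rw [slash_def, this]
  simp [σ, denom, Matrix.GeneralLinearGroup.val_det_apply]

theorem val_det_mapGL (γ : SL(2, ℤ)) : (mapGL ℝ γ : GL (Fin 2) ℝ).val.det = 1 := by
  rw [mapGL_coe_matrix]
  have := (Matrix.SpecialLinearGroup.map (algebraMap ℤ ℝ) γ).det_coe
  simpa using this

theorem det_mapGL_pos (γ : SL(2, ℤ)) : 0 < (mapGL ℝ γ : GL (Fin 2) ℝ).val.det := by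
  rw [val_det_mapGL]; exact one_pos

/-- If `F` is holomorphic, invariant of weight `1 - n` under an arithmetic group `𝒢`, and
`D^[n] F` is a cusp form of weight `n + 1` for `𝒢`, then every `SL(2, ℤ)`-translate of `F`
is bounded at `i∞`. -/
theorem isBoundedAtImInfty_slash_of_invariant {𝒢 : Subgroup (GL (Fin 2) ℝ)} [𝒢.IsArithmetic]
    (n : ℕ) (f : CuspForm 𝒢 ((n : ℤ) + 1)) {F : ℍ → ℂ} (hF : MDiff F)
    (hinv : ∀ γ ∈ 𝒢, F ∣[(1 : ℤ) - n] γ = F) (hD : D^[n] F = f) (γ : SL(2, ℤ)) :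
    IsBoundedAtImInfty (F ∣[(1 : ℤ) - n] (mapGL ℝ γ)) := by
  obtain ⟨M, hM0, hM⟩ := Subgroup.IsArithmetic.exists_nat_mem_strictPeriods_conj 𝒢
  have hMR : (0 : ℝ) < M := by exact_mod_cast hM0
  -- the translated cusp form
  set g : CuspForm (ConjAct.toConjAct (mapGL ℝ γ)⁻¹ • 𝒢) ((n : ℤ) + 1) :=
    CuspForm.translate f (mapGL ℝ γ) with hg
  have hper : (M : ℝ) ∈ (ConjAct.toConjAct (mapGL ℝ γ)⁻¹ • 𝒢).strictPeriods := by
    have := hM γ⁻¹
    simpa using this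
  have hgper : Function.Periodic ((g : ℍ → ℂ) ∘ ofComplex) (M : ℝ) :=
    SlashInvariantFormClass.periodic_comp_ofComplex g hper
  have hcusp : IsCusp OnePoint.infty (ConjAct.toConjAct (mapGL ℝ γ)⁻¹ • 𝒢) :=
    Subgroup.isCusp_of_mem_strictPeriods hMR hper
  have hgzero : IsZeroAtImInfty (g : ℍ → ℂ) :=
    OnePoint.isZeroAt_infty_iff.mp (CuspFormClass.zero_at_cusps g hcusp)
  have hghol : MDiff (g : ℍ → ℂ) := CuspFormClass.holo g
  obtain ⟨G, hGper, hGhol, hGzero, hDG⟩ := exists_eichler_integral n hMR hgper hghol hgzero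
  -- the translate of F
  set H : ℍ → ℂ := F ∣[(1 : ℤ) - n] (mapGL ℝ γ) with hH
  have hHhol : MDiff H := hF.slash _ _
  have hgcoe : (g : ℍ → ℂ) = (f : ℍ → ℂ) ∣[(n : ℤ) + 1] (mapGL ℝ γ) := rfl
  have hDH : D^[n] H = g := by
    rw [hH, bol n hF (mapGL ℝ γ) (det_mapGL_pos γ), hD, hgcoe, val_det_mapGL]
    simp
  have hDdiff : D^[n] (H - G) = 0 := by
    rw [iterate_D_sub n hHhol hGhol, hDH, hDG, sub_self]
  obtain ⟨p, hpdeg, hp⟩ := exists_poly_of_iterate_D_eq_zero n (hHhol.sub hGhol) hDdiff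
  -- H is periodic
  have hHper : ∀ τ : ℍ, H ((M : ℝ) +ᵥ τ) = H τ := by
    intro τ
    have hmem : mapGL ℝ γ * Matrix.GeneralLinearGroup.upperRightHom (M : ℝ) * (mapGL ℝ γ)⁻¹ ∈ 𝒢 := by
      have := hper
      rw [Subgroup.mem_strictPeriods_iff, Subgroup.mem_pointwise_smul_iff_inv_smul_mem] at this
      simpa [ConjAct.toConjAct_smul, mul_assoc] using this
    have h1 := hinv _ hmem
    rw [← slash_upperRightHom_apply ((1 : ℤ) - n) H (M : ℝ) τ, hH, ← SlashAction.slash_mul]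
    conv_rhs => rw [← h1]
    rw [← SlashAction.slash_mul]
    group
  -- hence so is the polynomial
  have hGper' : ∀ τ : ℍ, G ((M : ℝ) +ᵥ τ) = G τ := by
    intro τ
    have := hGper (τ : ℂ)
    simp only [Function.comp_apply, ofComplex_apply] at this
    rw [← this]
    congr 1
    have him : 0 < ((τ : ℂ) + ((M : ℝ) : ℂ)).im := by simpa using τ.im_pos
    rw [ofComplex_apply_of_im_pos him]
    ext
    simp [add_comm]
  have hpper : ∀ τ : ℍ, p.eval ((τ : ℂ) + (M : ℝ)) = p.eval (τ : ℂ) := by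
    intro τ
    have h1 := hp ((M : ℝ) +ᵥ τ)
    have h2 := hp τ
    simp only [Pi.sub_apply] at h1 h2
    rw [hHper τ, hGper' τ, h2] at h1
    rw [h1]
    congr 1
    simp [add_comm]
  obtain ⟨c, hc⟩ := poly_eq_const_of_periodic p hMR.ne' hpper
  have hHeq : H = G + fun _ => c := by
    funext τ
    have h2 := hp τ
    simp only [Pi.sub_apply, hc, Polynomial.eval_C] at h2
    simp only [Pi.add_apply]
    rw [← h2]; ring
  rw [hHeq]
  exact hGzero.isBoundedAtImInfty.add (Filter.const_boundedAtFilter _ c)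

/-- Separation: a holomorphic `F`, vanishing at `i∞`, invariant in weight `1 - n` (`n ≥ 1`) under
an arithmetic group `𝒢`, whose `n`-th normalised derivative is a cusp form of weight `n + 1`,
is zero. -/
theorem eq_zero_of_invariant {𝒢 : Subgroup (GL (Fin 2) ℝ)} [𝒢.IsArithmetic]
    (n : ℕ) (hn : 1 ≤ n) (f : CuspForm 𝒢 ((n : ℤ) + 1)) {F : ℍ → ℂ} (hF : MDiff F)
    (hzero : IsZeroAtImInfty F)
    (hinv : ∀ γ ∈ 𝒢, F ∣[(1 : ℤ) - n] γ = F) (hD : D^[n] F = f) : F = 0 := by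
  -- package `F` as a modular form of weight `k = 1 - n`
  obtain ⟨k, hk⟩ : ∃ k : ℤ, k = (1 : ℤ) - n := ⟨_, rfl⟩
  have hbdd : ∀ {c : OnePoint ℝ}, IsCusp c 𝒢 → c.IsBoundedAt F k := by
    intro c hc
    rw [Subgroup.IsArithmetic.isCusp_iff_isCusp_SL2Z] at hc
    rw [OnePoint.isBoundedAt_iff_exists_SL2Z hc]
    obtain ⟨γ, hγ⟩ := isCusp_SL2Z_iff'.mp hc
    refine ⟨γ, hγ.symm, ?_⟩
    rw [SL_slash, hk]
    exact isBoundedAtImInfty_slash_of_invariant n f hF hinv hD γ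
  let Fm : ModularForm 𝒢 k :=
    { toFun := F
      slash_action_eq' := fun γ hγ => by rw [hk]; exact hinv γ hγ
      holo' := hF
      bdd_at_cusps' := fun hc => hbdd hc }
  have hFm : (Fm : ℍ → ℂ) = F := rfl
  have hk0 : k ≤ 0 := by
    have : (1 : ℤ) ≤ n := by exact_mod_cast hn
    rw [hk]; linarith
  rcases lt_or_eq_of_le hk0 with hneg | h0
  · have := ModularForm.isZero_of_neg_weight hneg Fm
    rw [← hFm, this]; rfl
  · subst h0
    obtain ⟨c, hc⟩ := ModularForm.eq_const_of_weight_zero Fm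
    rw [hFm] at hc
    have hc0 : c = 0 := by
      have h1 : Filter.Tendsto F atImInfty (nhds 0) := hzero
      rw [hc] at h1
      exact (tendsto_nhds_unique h1 tendsto_const_nhds).symm
    rw [hc, hc0]; rfl

theorem cuspForm_eq_zero_of_invariant {𝒢 : Subgroup (GL (Fin 2) ℝ)} [𝒢.IsArithmetic]
    (n : ℕ) (hn : 1 ≤ n) (f : CuspForm 𝒢 ((n : ℤ) + 1)) {F : ℍ → ℂ} (hF : MDiff F)
    (hzero : IsZeroAtImInfty F)
    (hinv : ∀ γ ∈ 𝒢, F ∣[(1 : ℤ) - n] γ = F) (hD : D^[n] F = f) : f = 0 := by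
  have h0 := eq_zero_of_invariant n hn f hF hzero hinv hD
  apply DFunLike.coe_injective
  rw [← hD, h0]
  have : D^[n] (0 : ℍ → ℂ) = 0 := by
    have h0 : MDiff (0 : ℍ → ℂ) := mdifferentiable_const (c := (0 : ℂ))
    have := iterate_D_smul n (0 : ℂ) (F := (0 : ℍ → ℂ)) h0
    simpa using this
  rw [this]; rfl

/-- Separation in the form used for the period lattice. -/
theorem eq_zero_of_eich_invariant {n N : ℕ} [NeZero N] (hn : 1 ≤ n)
    (f : CuspForm (CongruenceSubgroup.Gamma0 N) ((n : ℤ) + 1))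
    (hinv : ∀ γ : SL(2, ℤ), γ ∈ CongruenceSubgroup.Gamma0 N →
      (eich n f) ∣[(1 : ℤ) - n] (Matrix.SpecialLinearGroup.mapGL ℝ γ) = eich n f) :
    f = 0 := by
  obtain ⟨hd, hz, hD⟩ := isEich_eich_cuspForm n f
  refine cuspForm_eq_zero_of_invariant n hn f hd hz ?_ hD
  rintro γ ⟨γ', hγ', rfl⟩
  exact hinv γ' hγ'

end

end Fermat.Agent.S22
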