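import Mathlib
import Fermat.Prelude.Def_CuspForm_HeckeAlgebra
import Fermat.Agent.S22.PeriodHecke
import Fermat.Agent.S22.Separation
import Fermat.Agent.S22.GammaFG

/-! The period lattice in the dual of the space of cusp forms. -/

set_option autoImplicit false

namespace Fermat.Agent.S22

open UpperHalfPlane ModularForm CongruenceSubgroup
open scoped Manifold MatrixGroups ModularForm Derivative

noncomputable section

/-- The functional `f ↦ j`-th coefficient of the period polynomial of `f` at `γ`. -/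
def coeffFunctional (n N : ℕ) [NeZero N] (γ : Gamma0 N) (j : ℕ) :
    Module.Dual ℂ (CuspForm (Gamma0 N) ((n : ℤ) + 1)) where
  toFun f := (periodPoly n N γ f).coeff j
  map_add' f g := by rw [periodPoly_add, Polynomial.coeff_add]
  map_smul' c f := by rw [periodPoly_smul, Polynomial.coeff_smul, RingHom.id_apply]

/-- The lattice spanned by all coefficient functionals. -/
def periodLattice (n N : ℕ) [NeZero N] :
    Submodule ℤ (Module.Dual ℂ (CuspForm (Gamma0 N) ((n : ℤ) + 1))) :=
  Submodule.span ℤ (Set.range fun p : Gamma0 N × ℕ => coeffFunctional n N p.1 p.2)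

variable {n N : ℕ} [NeZero N]

theorem coeffFunctional_apply (γ : Gamma0 N) (j : ℕ) (f : CuspForm (Gamma0 N) ((n : ℤ) + 1)) :
    coeffFunctional n N γ j f = (periodPoly n N γ f).coeff j := rfl

theorem coeffFunctional_mem (γ : Gamma0 N) (j : ℕ) :
    coeffFunctional n N γ j ∈ periodLattice n N :=
  Submodule.subset_span ⟨(γ, j), rfl⟩

theorem coeffFunctional_eq_zero_of_le (γ : Gamma0 N) {j : ℕ} (hj : n ≤ j) :
    coeffFunctional n N γ j = 0 := by
  ext f
  rw [coeffFunctional_apply, LinearMap.zero_apply]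
  exact Polynomial.coeff_eq_zero_of_degree_lt
    (lt_of_lt_of_le (periodPoly_degree_lt γ f) (by exact_mod_cast hj))

/-- A functional given by a coefficient of `polyAct` of a period polynomial lies in any
submodule containing the coefficient functionals of that `γ`. -/
theorem mem_of_polyAct_coeff
    (Λ : Submodule ℤ (Module.Dual ℂ (CuspForm (Gamma0 N) ((n : ℤ) + 1))))
    (l : Module.Dual ℂ (CuspForm (Gamma0 N) ((n : ℤ) + 1))) (γ : Gamma0 N) (a b c d : ℤ) (i : ℕ)
    (hγ : ∀ j, coeffFunctional n N γ j ∈ Λ)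
    (hl : ∀ f, l f = (polyAct n a b c d (periodPoly n N γ f)).coeff i) : l ∈ Λ := by
  have : l = ∑ j ∈ Finset.range n, actCoeff n a b c d i j • coeffFunctional n N γ j := by
    ext f
    rw [hl f, polyAct_coeff, LinearMap.sum_apply]
    refine Finset.sum_congr rfl fun j _ => ?_
    rw [LinearMap.smul_apply, coeffFunctional_apply, zsmul_eq_mul]
  rw [this]
  exact Submodule.sum_mem _ fun j _ => Submodule.smul_mem _ _ (hγ j)

theorem periodLattice_fg : (periodLattice n N).FG := by
  obtain ⟨S, hS, hSfin⟩ := Group.fg_iff.mp (Gamma0_fg N)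
  set gen : Gamma0 N × ℕ → Module.Dual ℂ (CuspForm (Gamma0 N) ((n : ℤ) + 1)) :=
    fun p => coeffFunctional n N p.1 p.2 with hgen
  set Λ₀ : Submodule ℤ (Module.Dual ℂ (CuspForm (Gamma0 N) ((n : ℤ) + 1))) :=
    Submodule.span ℤ (gen '' (S ×ˢ (Finset.range n : Set ℕ))) with hΛ₀
  have hfg : Λ₀.FG :=
    Submodule.fg_span ((hSfin.prod (Finset.finite_toSet _)).image _)
  have hmemS : ∀ s ∈ S, ∀ j, coeffFunctional n N s j ∈ Λ₀ := by
    intro s hs j
    by_cases hj : j < n
    · exact Submodule.subset_span ⟨(s, j), ⟨hs, by simpa using hj⟩, rfl⟩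
    · rw [coeffFunctional_eq_zero_of_le s (not_lt.mp hj)]
      exact Submodule.zero_mem _
  have hall : ∀ γ : Gamma0 N, ∀ j, coeffFunctional n N γ j ∈ Λ₀ := by
    intro γ
    have hγ : γ ∈ Subgroup.closure S := hS ▸ Subgroup.mem_top γ
    induction hγ using Subgroup.closure_induction with
    | mem x hx => exact hmemS x hx
    | one =>
      intro j
      have : coeffFunctional n N (1 : Gamma0 N) j = 0 := by
        ext f
        rw [coeffFunctional_apply, periodPoly_one, Polynomial.coeff_zero, LinearMap.zero_apply]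
      rw [this]
      exact Submodule.zero_mem _
    | mul x y _ _ hx hy =>
      intro i
      set l : Module.Dual ℂ (CuspForm (Gamma0 N) ((n : ℤ) + 1)) :=
        coeffFunctional n N (x * y) i - coeffFunctional n N y i with hl
      have hlmem : l ∈ Λ₀ := by
        refine mem_of_polyAct_coeff Λ₀ l x ((y : SL(2, ℤ)) 0 0) ((y : SL(2, ℤ)) 0 1)
          ((y : SL(2, ℤ)) 1 0) ((y : SL(2, ℤ)) 1 1) i hx fun f => ?_
        rw [hl, LinearMap.sub_apply, coeffFunctional_apply, coeffFunctional_apply,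
          periodPoly_mul, Polynomial.coeff_add, add_sub_cancel_right]
      have : coeffFunctional n N (x * y) i = l + coeffFunctional n N y i := by
        rw [hl, sub_add_cancel]
      rw [this]
      exact Submodule.add_mem _ hlmem (hy i)
    | inv x _ hx =>
      intro i
      set l : Module.Dual ℂ (CuspForm (Gamma0 N) ((n : ℤ) + 1)) :=
        - coeffFunctional n N x⁻¹ i with hl
      have hlmem : l ∈ Λ₀ := by
        refine mem_of_polyAct_coeff Λ₀ l x (((x⁻¹ : Gamma0 N) : SL(2, ℤ)) 0 0)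
          (((x⁻¹ : Gamma0 N) : SL(2, ℤ)) 0 1) (((x⁻¹ : Gamma0 N) : SL(2, ℤ)) 1 0)
          (((x⁻¹ : Gamma0 N) : SL(2, ℤ)) 1 1) i hx fun f => ?_
        have h1 := periodPoly_mul x x⁻¹ f
        rw [mul_inv_cancel, periodPoly_one] at h1
        rw [hl, LinearMap.neg_apply, coeffFunctional_apply]
        have h2 := congrArg (fun p : Polynomial ℂ => p.coeff i) h1
        simp only [Polynomial.coeff_zero, Polynomial.coeff_add] at h2
        linear_combination h2
      have : coeffFunctional n N x⁻¹ i = - l := by rw [hl, neg_neg]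
      rw [this]
      exact Submodule.neg_mem _ hlmem
  have heq : periodLattice n N = Λ₀ := by
    apply le_antisymm
    · rw [periodLattice, Submodule.span_le]
      rintro _ ⟨p, rfl⟩
      exact hall p.1 p.2
    · rw [hΛ₀, Submodule.span_le]
      rintro _ ⟨p, -, rfl⟩
      exact coeffFunctional_mem p.1 p.2
  rw [heq]
  exact hfg

theorem periodLattice_stable_T {ℓ : ℕ} (hℓ : ℓ.Prime) (hℓN : ¬ ℓ ∣ N)
    (l : Module.Dual ℂ (CuspForm (Gamma0 N) ((n : ℤ) + 1))) (hl : l ∈ periodLattice n N) :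
    l ∘ₗ CuspForm.heckeTLin ((n : ℤ) + 1) hℓ hℓN ∈ periodLattice n N := by
  have : NeZero ℓ := ⟨hℓ.ne_zero⟩
  set Φ : Module.Dual ℂ (CuspForm (Gamma0 N) ((n : ℤ) + 1)) →ₗ[ℤ]
      Module.Dual ℂ (CuspForm (Gamma0 N) ((n : ℤ) + 1)) :=
    (LinearMap.lcomp ℂ ℂ (CuspForm.heckeTLin ((n : ℤ) + 1) hℓ hℓN)).restrictScalars ℤ with hΦ
  have hle : (periodLattice n N).map Φ ≤ periodLattice n N := by
    rw [periodLattice, Submodule.map_span_le]
    rintro _ ⟨p, rfl⟩
    obtain ⟨γ', y, h⟩ := periodPoly_heckeT (n := n) hℓ hℓN p.1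
    have hsum : Φ (coeffFunctional n N p.1 p.2) =
        ∑ x : OnePoint (ZMod ℓ), (Polynomial.lcoeff ℂ p.2 ∘ₗ
          polyAct n (repEntry ℓ (y x)).1 (repEntry ℓ (y x)).2.1 (repEntry ℓ (y x)).2.2.1
            (repEntry ℓ (y x)).2.2.2) ∘ₗ
          (⟨⟨fun f => periodPoly n N (γ' x) f, periodPoly_add _⟩, periodPoly_smul _⟩ :
            CuspForm (Gamma0 N) ((n : ℤ) + 1) →ₗ[ℂ] Polynomial ℂ) := by
      ext f
      simp only [hΦ, LinearMap.restrictScalars_apply, LinearMap.lcomp_apply, LinearMap.comp_apply,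
        coeffFunctional_apply, h f, Polynomial.finsetSum_coeff, LinearMap.sum_apply,
        Polynomial.lcoeff_apply, LinearMap.coe_mk, AddHom.coe_mk]
    rw [hsum]
    refine Submodule.sum_mem _ fun x _ => ?_
    refine mem_of_polyAct_coeff _ _ (γ' x) (repEntry ℓ (y x)).1 (repEntry ℓ (y x)).2.1
      (repEntry ℓ (y x)).2.2.1 (repEntry ℓ (y x)).2.2.2 p.2 (fun j => coeffFunctional_mem _ _)
      fun f => ?_
    simp only [LinearMap.comp_apply, Polynomial.lcoeff_apply, LinearMap.coe_mk, AddHom.coe_mk]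
  exact hle (Submodule.mem_map_of_mem hl)

theorem periodLattice_stable_U {q : ℕ} (hq : q.Prime) (hqN : q ∣ N)
    (l : Module.Dual ℂ (CuspForm (Gamma0 N) ((n : ℤ) + 1))) (hl : l ∈ periodLattice n N) :
    l ∘ₗ CuspForm.heckeULin ((n : ℤ) + 1) hqN ∈ periodLattice n N := by
  have : NeZero q := ⟨hq.ne_zero⟩
  set Φ : Module.Dual ℂ (CuspForm (Gamma0 N) ((n : ℤ) + 1)) →ₗ[ℤ]
      Module.Dual ℂ (CuspForm (Gamma0 N) ((n : ℤ) + 1)) :=
    (LinearMap.lcomp ℂ ℂ (CuspForm.heckeULin ((n : ℤ) + 1) hqN)).restrictScalars ℤ with hΦ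
  have hle : (periodLattice n N).map Φ ≤ periodLattice n N := by
    rw [periodLattice, Submodule.map_span_le]
    rintro _ ⟨p, rfl⟩
    obtain ⟨γ', y, h⟩ := periodPoly_heckeU (n := n) hqN p.1
    have hsum : Φ (coeffFunctional n N p.1 p.2) =
        ∑ x : ZMod q, (Polynomial.lcoeff ℂ p.2 ∘ₗ
          polyAct n 1 ((y x).val : ℤ) 0 (q : ℤ)) ∘ₗ
          (⟨⟨fun f => periodPoly n N (γ' x) f, periodPoly_add _⟩, periodPoly_smul _⟩ :
            CuspForm (Gamma0 N) ((n : ℤ) + 1) →ₗ[ℂ] Polynomial ℂ) := by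
      ext f
      simp only [hΦ, LinearMap.restrictScalars_apply, LinearMap.lcomp_apply, LinearMap.comp_apply,
        coeffFunctional_apply, h f, Polynomial.finsetSum_coeff, LinearMap.sum_apply,
        Polynomial.lcoeff_apply, LinearMap.coe_mk, AddHom.coe_mk]
    rw [hsum]
    refine Submodule.sum_mem _ fun x _ => ?_
    refine mem_of_polyAct_coeff _ _ (γ' x) 1 ((y x).val : ℤ) 0 (q : ℤ) p.2
      (fun j => coeffFunctional_mem _ _) fun f => ?_
    simp only [LinearMap.comp_apply, Polynomial.lcoeff_apply, LinearMap.coe_mk, AddHom.coe_mk]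
  exact hle (Submodule.mem_map_of_mem hl)

theorem periodLattice_separating (hn : 1 ≤ n) (f : CuspForm (Gamma0 N) ((n : ℤ) + 1))
    (h : ∀ l ∈ periodLattice n N, l f = 0) : f = 0 := by
  refine eq_zero_of_eich_invariant hn f fun γ hγ => ?_
  rw [← periodPoly_eq_zero_iff ⟨γ, hγ⟩ f]
  ext i
  rw [Polynomial.coeff_zero]
  exact h _ (coeffFunctional_mem ⟨γ, hγ⟩ i)

end

end Fermat.Agent.S22
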