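import Mathlib

set_option autoImplicit false

namespace Fermat.Agent.S22

open UpperHalfPlane ModularForm
open scoped Manifold MatrixGroups ModularForm

theorem cuspForm_eq_zero_of_weight_le_one (N : ℕ) [NeZero N] {k : ℤ} (hk : k ≤ 1)
    (f : CuspForm (CongruenceSubgroup.Gamma0 N) k) : f = 0 := by
  rcases lt_trichotomy k 0 with hneg | hzero | hpos
  · -- negative weight
    have h := ModularForm.isZero_of_neg_weight hneg
      (ModularFormClass.modularForm f : ModularForm (CongruenceSubgroup.Gamma0 N) k)
    ext z
    have := congrArg (fun g : ModularForm (CongruenceSubgroup.Gamma0 N) k => g z) h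
    simpa using this
  · subst hzero
    obtain ⟨c, hc⟩ := ModularForm.eq_const_of_weight_zero
      (ModularFormClass.modularForm f : ModularForm (CongruenceSubgroup.Gamma0 N) 0)
    have hz : IsZeroAtImInfty (f : ℍ → ℂ) := CuspFormClass.zero_at_infty f
    have hfc : (f : ℍ → ℂ) = Function.const ℍ c := by
      simpa using hc
    have hc0 : c = 0 := by
      rw [hfc] at hz
      have h1 : Filter.Tendsto (Function.const ℍ c) atImInfty (nhds 0) := hz
      have h2 : Filter.Tendsto (Function.const ℍ c) atImInfty (nhds c) := tendsto_const_nhds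
      exact tendsto_nhds_unique h2 h1
    ext z
    rw [hfc, hc0]
    rfl
  · have hk1 : k = 1 := by omega
    subst hk1
    have hmem : (-1 : SL(2, ℤ)) ∈ CongruenceSubgroup.Gamma0 N := by
      rw [CongruenceSubgroup.Gamma0_mem]
      simp
    have hinv := SlashInvariantForm.slash_action_eqn_SL'' f hmem
    ext z
    have h1 := hinv z
    simp at h1
    have hd : denom (Matrix.SpecialLinearGroup.toGL (-1 : Matrix.SpecialLinearGroup (Fin 2) ℝ)) (z : ℂ) = -1 := by
      simp [denom]
    rw [hd] at h1
    have h2 : (2 : ℂ) * f z = 0 := by linear_combination h1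
    have h3 : f z = 0 := by simpa using h2
    simpa using h3

end Fermat.Agent.S22
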