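import Mathlib

set_option autoImplicit false

namespace Fermat.Agent.S22

/-- Abstract finite generation: values of a "cocycle with integral action" on a finitely
generated group span a finitely generated `ℤ`-module. -/
theorem fg_span_of_cocycle {Γ : Type*} [Group Γ] [hΓ : Group.FG Γ] {M : Type*} [AddCommGroup M]
    (n : ℕ) (c : Γ → ℕ → M) (A : Γ → ℕ → ℕ → ℤ)
    (hone : ∀ i, c 1 i = 0)
    (hmul : ∀ γ₁ γ₂ i, c (γ₁ * γ₂) i = ∑ j ∈ Finset.range n, A γ₂ i j • c γ₁ j + c γ₂ i)
    (hdeg : ∀ γ i, n ≤ i → c γ i = 0) :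
    (Submodule.span ℤ {m : M | ∃ γ i, m = c γ i}).FG := by
  obtain ⟨S, hS, hSfin⟩ := Group.fg_iff.mp hΓ
  set gens : Set M := (fun p : Γ × ℕ => c p.1 p.2) '' (S ×ˢ (Finset.range n : Set ℕ)) with hgens
  have hgens_fin : gens.Finite := (hSfin.prod (Finset.finite_toSet _)).image _
  set Λ' : Submodule ℤ M := Submodule.span ℤ gens with hΛ'
  have key : ∀ γ : Γ, ∀ i, c γ i ∈ Λ' := by
    intro γ
    have hγ : γ ∈ Subgroup.closure S := by rw [hS]; trivial
    induction hγ using Subgroup.closure_induction with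
    | mem x hx =>
      intro i
      by_cases hi : i < n
      · apply Submodule.subset_span
        exact ⟨(x, i), ⟨hx, by simpa using hi⟩, rfl⟩
      · rw [hdeg x i (not_lt.mp hi)]
        exact Λ'.zero_mem
    | one =>
      intro i
      rw [hone i]
      exact Λ'.zero_mem
    | mul x y _ _ hx hy =>
      intro i
      rw [hmul x y i]
      refine Λ'.add_mem (Submodule.sum_mem _ fun j _ => ?_) (hy i)
      exact Λ'.smul_mem _ (hx j)
    | inv x _ hx =>
      intro i
      have h := hmul x x⁻¹ i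
      rw [mul_inv_cancel, hone i] at h
      have h2 : c x⁻¹ i = - ∑ j ∈ Finset.range n, A x⁻¹ i j • c x j := by
        rw [eq_neg_iff_add_eq_zero, add_comm]
        exact h.symm
      rw [h2]
      refine Λ'.neg_mem (Submodule.sum_mem _ fun j _ => ?_)
      exact Λ'.smul_mem _ (hx j)
  have heq : Submodule.span ℤ {m : M | ∃ γ i, m = c γ i} = Λ' := by
    apply le_antisymm
    · rw [Submodule.span_le]
      rintro m ⟨γ, i, rfl⟩
      exact key γ i
    · apply Submodule.span_mono
      rintro m ⟨⟨γ, i⟩, _, rfl⟩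
      exact ⟨γ, i, rfl⟩
  rw [heq]
  exact Submodule.fg_span hgens_fin

end Fermat.Agent.S22
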