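import Mathlib
import Fermat.Prelude.Def_CuspForm_HeckeAlgebra

set_option autoImplicit false

namespace Fermat.Agent.S22

open UpperHalfPlane ModularForm Matrix.SpecialLinearGroup
open scoped Manifold MatrixGroups ModularForm

open P2MW.S_ModularForm_heckeT_slash_eq_self_of_mem_Gamma0.ModularForm.HeckeSlashInvariance

noncomputable section

theorem sub_slash' (k : ℤ) (A : GL (Fin 2) ℝ) (f g : ℍ → ℂ) :
    (f - g) ∣[k] A = f ∣[k] A - g ∣[k] A := by
  rw [sub_eq_add_neg, SlashAction.add_slash, SlashAction.neg_slash, ← sub_eq_add_neg]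

/-- integral shape of the coset representatives -/
theorem heckeRep_val_exists {p : ℕ} (hp : p ≠ 0) (x : OnePoint (ZMod p)) :
    ∃ a b d : ℤ, (heckeRep p x).val = !![(a : ℝ), (b : ℝ); ((0 : ℤ) : ℝ), (d : ℝ)] ∧
      a * d = p ∧ (heckeRep p x).val.det = p := by
  induction x using OnePoint.rec with
  | infty =>
    refine ⟨p, 0, 1, ?_, by ring, ?_⟩
    · rw [heckeRep_infty, val_heckeDiagMatrix hp]; simp
    · rw [heckeRep_infty, val_heckeDiagMatrix hp, Matrix.det_fin_two_of]; ring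
  | coe j =>
    refine ⟨1, j.val, p, ?_, by ring, ?_⟩
    · rw [heckeRep_coe, val_heckeMatrix hp]; simp
    · rw [heckeRep_coe, val_heckeMatrix hp, Matrix.det_fin_two_of]; ring

theorem period_heckeT (k : ℤ) {N p : ℕ} (hp : p.Prime) (hpN : ¬ p ∣ N) (F : ℍ → ℂ)
    (g : SL(2, ℤ)) (hg : g ∈ CongruenceSubgroup.Gamma0 N) :
    ∃ (ι : Type) (_ : Fintype ι) (g' : ι → SL(2, ℤ)) (δ : ι → GL (Fin 2) ℝ) (a b d : ι → ℤ),
      (∀ x, g' x ∈ CongruenceSubgroup.Gamma0 N) ∧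
      (∀ x, (δ x).val = !![(a x : ℝ), (b x : ℝ); ((0 : ℤ) : ℝ), (d x : ℝ)]) ∧
      (∀ x, (δ x).val.det = p) ∧
      heckeT k p F ∣[k] (mapGL ℝ g) - heckeT k p F =
        ∑ x, (F ∣[k] (mapGL ℝ (g' x)) - F) ∣[k] δ x := by
  have : Fact p.Prime := ⟨hp⟩
  have hcN : (N : ℤ) ∣ g 1 0 :=
    (ZMod.intCast_zmod_eq_zero_iff_dvd _ _).mp (CongruenceSubgroup.Gamma0_mem.mp hg)
  choose g' hg'N hmul using fun x => heckeRep_mul hpN g hcN x
  choose a b d hval had hdet using fun x => heckeRep_val_exists hp.ne_zero (p := p) x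
  refine ⟨OnePoint (ZMod p), inferInstance, g', fun x => heckeRep p (redMatrix p g • x),
    fun x => a (redMatrix p g • x), fun x => b (redMatrix p g • x), fun x => d (redMatrix p g • x),
    ?_, fun x => hval _, fun x => hdet _, ?_⟩
  · intro x
    exact CongruenceSubgroup.Gamma0_mem.mpr ((ZMod.intCast_zmod_eq_zero_iff_dvd _ _).mpr (hg'N x))
  · rw [heckeT_eq_sum_onePoint k F, SlashAction.sum_slash]
    have h2 : ∑ x : OnePoint (ZMod p), F ∣[k] heckeRep p x =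
        ∑ x : OnePoint (ZMod p), F ∣[k] heckeRep p (redMatrix p g • x) :=
      (Equiv.sum_comp (MulAction.toPerm (redMatrix p g)) (fun x ↦ F ∣[k] heckeRep p x)).symm
    rw [h2, ← Finset.sum_sub_distrib]
    refine Finset.sum_congr rfl fun x _ => ?_
    rw [← SlashAction.slash_mul, hmul x, SlashAction.slash_mul, sub_slash']

theorem period_heckeU (k : ℤ) {N p : ℕ} [NeZero N] (hpN : p ∣ N) (F : ℍ → ℂ)
    (g : SL(2, ℤ)) (hg : g ∈ CongruenceSubgroup.Gamma0 N) :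
    ∃ (ι : Type) (_ : Fintype ι) (g' : ι → SL(2, ℤ)) (δ : ι → GL (Fin 2) ℝ) (a b d : ι → ℤ),
      (∀ x, g' x ∈ CongruenceSubgroup.Gamma0 N) ∧
      (∀ x, (δ x).val = !![(a x : ℝ), (b x : ℝ); ((0 : ℤ) : ℝ), (d x : ℝ)]) ∧
      (∀ x, (δ x).val.det = p) ∧
      heckeU k p F ∣[k] (mapGL ℝ g) - heckeU k p F =
        ∑ x, (F ∣[k] (mapGL ℝ (g' x)) - F) ∣[k] δ x := by
  have hp0 : p ≠ 0 := fun h => NeZero.ne N (by simpa [h] using hpN)
  have : NeZero p := ⟨hp0⟩
  have hcN : (N : ℤ) ∣ g 1 0 :=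
    (ZMod.intCast_zmod_eq_zero_iff_dvd _ _).mp (CongruenceSubgroup.Gamma0_mem.mp hg)
  have hc : (p : ℤ) ∣ g 1 0 := (Int.natCast_dvd_natCast.mpr hpN).trans hcN
  have hc0 : ((g 1 0 : ℤ) : ZMod p) = 0 := (ZMod.intCast_zmod_eq_zero_iff_dvd _ _).mpr hc
  choose g' hg' hmul using fun x => heckeMatrix_mul_of_dvd g hc x
  refine ⟨ZMod p, inferInstance, g', fun x => heckeMatrix p (affinePerm g hc0 x).val,
    fun _ => 1, fun x => ((affinePerm g hc0 x).val : ℤ), fun _ => p, ?_, ?_, ?_, ?_⟩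
  · intro x
    rw [CongruenceSubgroup.Gamma0_mem, hg' x]
    push_cast
    rw [CongruenceSubgroup.Gamma0_mem.mp hg, mul_zero]
  · intro x
    rw [val_heckeMatrix hp0]; simp
  · intro x
    rw [val_heckeMatrix hp0, Matrix.det_fin_two_of]; ring
  · rw [heckeU_eq_sum_zmod k F, SlashAction.sum_slash]
    have h2 : ∑ x : ZMod p, F ∣[k] heckeMatrix p x.val =
        ∑ x : ZMod p, F ∣[k] heckeMatrix p (affinePerm g hc0 x).val :=
      (Equiv.sum_comp (affinePerm g hc0) (fun x ↦ F ∣[k] heckeMatrix p x.val)).symm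
    rw [h2, ← Finset.sum_sub_distrib]
    refine Finset.sum_congr rfl fun x _ => ?_
    rw [← SlashAction.slash_mul, hmul x, SlashAction.slash_mul, sub_slash']

end

end Fermat.Agent.S22
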