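import Mathlib
import Fermat.Prelude.Def_CuspForm_HeckeAlgebra
import Fermat.Agent.S22.PolyAction
import Fermat.Agent.S22.HeckeCoset

set_option autoImplicit false

namespace Fermat.Agent.S22

open UpperHalfPlane ModularForm Matrix.SpecialLinearGroup
open scoped Manifold MatrixGroups ModularForm

noncomputable section

theorem smul_slash_mapGL (k : ℤ) (c : ℂ) (G : ℍ → ℂ) (g : SL(2, ℤ)) :
    (c • G) ∣[k] (mapGL ℝ g) = c • (G ∣[k] (mapGL ℝ g)) := by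
  rw [ModularForm.smul_slash]
  congr 1
  have hdet : 0 < ((mapGL ℝ g : GL (Fin 2) ℝ).det : ℝ) := by
    simp
  rw [σ, if_pos hdet]; rfl

/-- period polynomials of `p^n • heckeT (1-n) p F` are integral combinations of those of `F`. -/
theorem period_poly_of_period (n : ℕ) {N p : ℕ} (hp0 : p ≠ 0) (F : ℍ → ℂ) (H : ℍ → ℂ)
    (per : SL(2, ℤ) → Polynomial ℂ)
    (hdeg : ∀ g ∈ CongruenceSubgroup.Gamma0 N, (per g).degree < n)
    (hper : ∀ g ∈ CongruenceSubgroup.Gamma0 N,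
      F ∣[(1 : ℤ) - n] (mapGL ℝ g) - F = fun τ : ℍ => (per g).eval (τ : ℂ))
    (g : SL(2, ℤ))
    (hH : ∃ (ι : Type) (_ : Fintype ι) (g' : ι → SL(2, ℤ)) (δ : ι → GL (Fin 2) ℝ) (a b d : ι → ℤ),
      (∀ x, g' x ∈ CongruenceSubgroup.Gamma0 N) ∧
      (∀ x, (δ x).val = !![(a x : ℝ), (b x : ℝ); ((0 : ℤ) : ℝ), (d x : ℝ)]) ∧
      (∀ x, (δ x).val.det = p) ∧
      H ∣[(1 : ℤ) - n] (mapGL ℝ g) - H =
        ∑ x, (F ∣[(1 : ℤ) - n] (mapGL ℝ (g' x)) - F) ∣[(1 : ℤ) - n] δ x) :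
    ∃ (ι : Type) (_ : Fintype ι) (g' : ι → SL(2, ℤ)) (a b d : ι → ℤ),
      (∀ x, g' x ∈ CongruenceSubgroup.Gamma0 N) ∧
      ((p : ℂ) ^ n • H) ∣[(1 : ℤ) - n] (mapGL ℝ g) - (p : ℂ) ^ n • H =
        fun τ : ℍ => (∑ x, polyAct n (a x) (b x) 0 (d x) (per (g' x))).eval (τ : ℂ) := by
  obtain ⟨ι, hι, g', δ, a, b, d, hg', hδ, hdet, hsum⟩ := hH
  refine ⟨ι, hι, g', a, b, d, hg', ?_⟩
  have hpC : (p : ℂ) ≠ 0 := by exact_mod_cast hp0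
  rw [smul_slash_mapGL, ← smul_sub, hsum, Finset.smul_sum]
  have hterm : ∀ x, (p : ℂ) ^ n • ((F ∣[(1 : ℤ) - n] (mapGL ℝ (g' x)) - F) ∣[(1 : ℤ) - n] δ x) =
      fun τ : ℍ => (polyAct n (a x) (b x) 0 (d x) (per (g' x))).eval (τ : ℂ) := by
    intro x
    have hpos : 0 < (δ x).val.det := by
      rw [hdet x]; exact_mod_cast Nat.pos_of_ne_zero hp0
    rw [hper _ (hg' x), slash_poly n (δ x) (a x) (b x) 0 (d x) (hδ x) hpos _ (hdeg _ (hg' x)),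
      hdet x, smul_smul]
    have : (p : ℂ) ^ n * (((p : ℝ) : ℂ)⁻¹) ^ n = 1 := by
      rw [← mul_pow]
      have : (p : ℂ) * (((p : ℝ) : ℂ)⁻¹) = 1 := by
        rw [Complex.ofReal_natCast]; exact mul_inv_cancel₀ hpC
      rw [this, one_pow]
    rw [this, one_smul]
  simp_rw [hterm]
  funext τ
  rw [Finset.sum_apply, Polynomial.eval_finsetSum]

theorem period_heckeT_poly (n : ℕ) {N p : ℕ} (hp : p.Prime) (hpN : ¬ p ∣ N) (F : ℍ → ℂ)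
    (per : SL(2, ℤ) → Polynomial ℂ)
    (hdeg : ∀ g ∈ CongruenceSubgroup.Gamma0 N, (per g).degree < n)
    (hper : ∀ g ∈ CongruenceSubgroup.Gamma0 N,
      F ∣[(1 : ℤ) - n] (mapGL ℝ g) - F = fun τ : ℍ => (per g).eval (τ : ℂ))
    (g : SL(2, ℤ)) (hg : g ∈ CongruenceSubgroup.Gamma0 N) :
    ∃ (ι : Type) (_ : Fintype ι) (g' : ι → SL(2, ℤ)) (a b d : ι → ℤ),
      (∀ x, g' x ∈ CongruenceSubgroup.Gamma0 N) ∧
      ((p : ℂ) ^ n • heckeT ((1 : ℤ) - n) p F) ∣[(1 : ℤ) - n] (mapGL ℝ g)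
          - (p : ℂ) ^ n • heckeT ((1 : ℤ) - n) p F =
        fun τ : ℍ => (∑ x, polyAct n (a x) (b x) 0 (d x) (per (g' x))).eval (τ : ℂ) :=
  period_poly_of_period n hp.ne_zero F _ per hdeg hper g
    (period_heckeT ((1 : ℤ) - n) hp hpN F g hg)

theorem period_heckeU_poly (n : ℕ) {N p : ℕ} [NeZero N] (hpN : p ∣ N) (F : ℍ → ℂ)
    (per : SL(2, ℤ) → Polynomial ℂ)
    (hdeg : ∀ g ∈ CongruenceSubgroup.Gamma0 N, (per g).degree < n)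
    (hper : ∀ g ∈ CongruenceSubgroup.Gamma0 N,
      F ∣[(1 : ℤ) - n] (mapGL ℝ g) - F = fun τ : ℍ => (per g).eval (τ : ℂ))
    (g : SL(2, ℤ)) (hg : g ∈ CongruenceSubgroup.Gamma0 N) :
    ∃ (ι : Type) (_ : Fintype ι) (g' : ι → SL(2, ℤ)) (a b d : ι → ℤ),
      (∀ x, g' x ∈ CongruenceSubgroup.Gamma0 N) ∧
      ((p : ℂ) ^ n • heckeU ((1 : ℤ) - n) p F) ∣[(1 : ℤ) - n] (mapGL ℝ g)
          - (p : ℂ) ^ n • heckeU ((1 : ℤ) - n) p F =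
        fun τ : ℍ => (∑ x, polyAct n (a x) (b x) 0 (d x) (per (g' x))).eval (τ : ℂ) :=
  period_poly_of_period n (fun h => NeZero.ne N (by simpa [h] using hpN)) F _ per hdeg hper g
    (period_heckeU ((1 : ℤ) - n) hpN F g hg)

end

end Fermat.Agent.S22
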